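import Fermat.Agent.Lib.RR.H80.Res.FPTrace

/-!
# Tate's residue symbol, abstract part 1: commensurability and the ideals `E₁`, `E₂`

`AlmostLE X Y` : `X ⊆ Y + (finite-dimensional)`.
For a subspace `A ⊆ V`: `EE A θ` (`θ A ≲ A`), `E1 A θ` (`θ V ≲ A`), `E2 A θ` (`θ A` finite-dimensional),
`E0 = E1 ∧ E2`.  The trace `fpTr` is additive on `E0` and kills commutators `[δ, g]`, `δ ∈ E0`,
`g ∈ EE`.
-/

set_option autoImplicit false

noncomputable section

namespace Fermat.Agent.Lib.RR.H80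

open LinearMap Module

variable {K V : Type*} [Field K] [AddCommGroup V] [Module K V]

/-- `X ⊆ Y + W` with `W` finite-dimensional. -/
def AlmostLE (X Y : Submodule K V) : Prop :=
  ∃ W : Submodule K V, FiniteDimensional K W ∧ X ≤ Y ⊔ W

theorem AlmostLE.of_le {X Y : Submodule K V} (h : X ≤ Y) : AlmostLE X Y :=
  ⟨⊥, inferInstance, h.trans le_sup_left⟩

theorem AlmostLE.refl (X : Submodule K V) : AlmostLE X X := AlmostLE.of_le le_rfl

theorem AlmostLE.trans {X Y Z : Submodule K V} (h1 : AlmostLE X Y) (h2 : AlmostLE Y Z) :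
    AlmostLE X Z := by
  obtain ⟨W₁, hW₁, h1⟩ := h1
  obtain ⟨W₂, hW₂, h2⟩ := h2
  refine ⟨W₂ ⊔ W₁, inferInstance, h1.trans ?_⟩
  rw [← sup_assoc]
  exact sup_le_sup_right h2 W₁

theorem AlmostLE.mono_left {X X' Y : Submodule K V} (h : X' ≤ X) (h1 : AlmostLE X Y) :
    AlmostLE X' Y :=
  (AlmostLE.of_le h).trans h1

theorem AlmostLE.map {X Y : Submodule K V} (h : AlmostLE X Y) (θ : Module.End K V) :
    AlmostLE (X.map θ) (Y.map θ) := by
  obtain ⟨W, hW, h⟩ := h
  refine ⟨W.map θ, inferInstance, ?_⟩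
  rw [← Submodule.map_sup]
  exact Submodule.map_mono h

theorem AlmostLE.sup {X X' Y : Submodule K V} (h : AlmostLE X Y) (h' : AlmostLE X' Y) :
    AlmostLE (X ⊔ X') Y := by
  obtain ⟨W, hW, h⟩ := h
  obtain ⟨W', hW', h'⟩ := h'
  refine ⟨W ⊔ W', inferInstance, sup_le (h.trans ?_) (h'.trans ?_)⟩
  · exact sup_le_sup_left le_sup_left Y
  · exact sup_le_sup_left le_sup_right Y

theorem AlmostLE.of_finiteDimensional (X Y : Submodule K V) [FiniteDimensional K X] :
    AlmostLE X Y :=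
  ⟨X, inferInstance, le_sup_right⟩

theorem almostLE_bot_iff {X : Submodule K V} : AlmostLE X ⊥ ↔ FiniteDimensional K X := by
  constructor
  · rintro ⟨W, hW, h⟩
    rw [bot_sup_eq] at h
    exact Submodule.finiteDimensional_of_le h
  · intro h
    exact AlmostLE.of_finiteDimensional X ⊥

theorem AlmostLE.finiteDimensional {X : Submodule K V} (h : AlmostLE X ⊥) :
    FiniteDimensional K X := almostLE_bot_iff.mp h

/-- `(Y + W₁) ∩ (Z + W₂) ⊆ (Y ∩ Z) + finite` is not needed; we only use sums. -/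
theorem AlmostLE.add_map {X Y : Submodule K V} {θ φ : Module.End K V}
    (h : AlmostLE (X.map θ) Y) (h' : AlmostLE (X.map φ) Y) : AlmostLE (X.map (θ + φ)) Y := by
  have : X.map (θ + φ) ≤ X.map θ ⊔ X.map φ := by
    rintro _ ⟨x, hx, rfl⟩
    rw [LinearMap.add_apply]
    exact Submodule.add_mem _ (Submodule.mem_sup_left ⟨x, hx, rfl⟩)
      (Submodule.mem_sup_right ⟨x, hx, rfl⟩)
  exact (h.sup h').mono_left this

theorem AlmostLE.neg_map {X Y : Submodule K V} {θ : Module.End K V}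
    (h : AlmostLE (X.map θ) Y) : AlmostLE (X.map (-θ)) Y := by
  have : X.map (-θ) ≤ X.map θ := by
    rintro _ ⟨x, hx, rfl⟩
    rw [LinearMap.neg_apply]
    exact Submodule.neg_mem _ ⟨x, hx, rfl⟩
  exact h.mono_left this

theorem AlmostLE.smul_map {X Y : Submodule K V} {θ : Module.End K V} (c : K)
    (h : AlmostLE (X.map θ) Y) : AlmostLE (X.map (c • θ)) Y := by
  have : X.map (c • θ) ≤ X.map θ := by
    rintro _ ⟨x, hx, rfl⟩
    rw [LinearMap.smul_apply]
    exact Submodule.smul_mem _ c ⟨x, hx, rfl⟩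
  exact h.mono_left this

/-! ### The classes `EE`, `E1`, `E2`, `E0` -/

variable (A : Submodule K V)

/-- `θ A ⊆ A + finite`. -/
def EE (θ : Module.End K V) : Prop := AlmostLE (A.map θ) A

/-- `θ V ⊆ A + finite`. -/
def E1 (θ : Module.End K V) : Prop := AlmostLE (LinearMap.range θ) A

/-- `θ A` is finite-dimensional. -/
def E2 (θ : Module.End K V) : Prop := AlmostLE (A.map θ) ⊥

/-- `E₀ = E₁ ∩ E₂`. -/
def E0 (θ : Module.End K V) : Prop := E1 A θ ∧ E2 A θ

variable {A}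

theorem E1.toEE {θ : Module.End K V} (h : E1 A θ) : EE A θ :=
  AlmostLE.mono_left (by rintro _ ⟨x, -, rfl⟩; exact ⟨x, rfl⟩) h

theorem E2.toEE {θ : Module.End K V} (h : E2 A θ) : EE A θ :=
  AlmostLE.trans h (AlmostLE.of_le bot_le)

theorem E0.toEE {θ : Module.End K V} (h : E0 A θ) : EE A θ := h.1.toEE

theorem EE.one : EE A (1 : Module.End K V) := by
  unfold EE
  rw [show A.map (1 : Module.End K V) = A from Submodule.map_id A]
  exact AlmostLE.refl A

theorem EE.of_map_le {θ : Module.End K V} (h : A.map θ ≤ A) : EE A θ := AlmostLE.of_le h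

theorem EE.add {θ φ : Module.End K V} (h : EE A θ) (h' : EE A φ) : EE A (θ + φ) :=
  AlmostLE.add_map h h'

theorem EE.neg {θ : Module.End K V} (h : EE A θ) : EE A (-θ) := AlmostLE.neg_map h

theorem EE.sub {θ φ : Module.End K V} (h : EE A θ) (h' : EE A φ) : EE A (θ - φ) := by
  rw [sub_eq_add_neg]; exact h.add h'.neg

theorem EE.smul {θ : Module.End K V} (c : K) (h : EE A θ) : EE A (c • θ) := AlmostLE.smul_map c h

theorem map_mul_eq (X : Submodule K V) (θ φ : Module.End K V) :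
    X.map (θ * φ) = (X.map φ).map θ := by
  rw [Module.End.mul_eq_comp, Submodule.map_comp]

theorem range_mul_eq (θ φ : Module.End K V) :
    LinearMap.range (θ * φ) = (LinearMap.range φ).map θ := by
  rw [Module.End.mul_eq_comp, LinearMap.range_comp]

theorem EE.mul {θ φ : Module.End K V} (h : EE A θ) (h' : EE A φ) : EE A (θ * φ) := by
  unfold EE
  rw [map_mul_eq]
  exact (AlmostLE.map h' θ).trans h

theorem E1.add {θ φ : Module.End K V} (h : E1 A θ) (h' : E1 A φ) : E1 A (θ + φ) := by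
  unfold E1 at *
  have : LinearMap.range (θ + φ) ≤ LinearMap.range θ ⊔ LinearMap.range φ := by
    rintro _ ⟨x, rfl⟩
    rw [LinearMap.add_apply]
    exact Submodule.add_mem _ (Submodule.mem_sup_left ⟨x, rfl⟩) (Submodule.mem_sup_right ⟨x, rfl⟩)
  exact (h.sup h').mono_left this

theorem E1.neg {θ : Module.End K V} (h : E1 A θ) : E1 A (-θ) := by
  unfold E1 at *
  have : LinearMap.range (-θ) ≤ LinearMap.range θ := by
    rintro _ ⟨x, rfl⟩
    rw [LinearMap.neg_apply]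
    exact Submodule.neg_mem _ ⟨x, rfl⟩
  exact h.mono_left this

theorem E1.sub {θ φ : Module.End K V} (h : E1 A θ) (h' : E1 A φ) : E1 A (θ - φ) := by
  rw [sub_eq_add_neg]; exact h.add h'.neg

theorem E1.smul {θ : Module.End K V} (c : K) (h : E1 A θ) : E1 A (c • θ) := by
  unfold E1 at *
  have : LinearMap.range (c • θ) ≤ LinearMap.range θ := by
    rintro _ ⟨x, rfl⟩
    rw [LinearMap.smul_apply]
    exact Submodule.smul_mem _ c ⟨x, rfl⟩
  exact h.mono_left this

theorem E1.mul_right {θ : Module.End K V} (h : E1 A θ) (φ : Module.End K V) : E1 A (θ * φ) := by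
  unfold E1 at *
  refine h.mono_left ?_
  rintro _ ⟨x, rfl⟩
  exact ⟨φ x, rfl⟩

theorem E1.mul_left {θ φ : Module.End K V} (h : E1 A θ) (h' : EE A φ) : E1 A (φ * θ) := by
  unfold E1 at *
  rw [range_mul_eq]
  exact (AlmostLE.map h φ).trans h'

theorem E2.add {θ φ : Module.End K V} (h : E2 A θ) (h' : E2 A φ) : E2 A (θ + φ) :=
  AlmostLE.add_map h h'

theorem E2.neg {θ : Module.End K V} (h : E2 A θ) : E2 A (-θ) := AlmostLE.neg_map h

theorem E2.sub {θ φ : Module.End K V} (h : E2 A θ) (h' : E2 A φ) : E2 A (θ - φ) := by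
  rw [sub_eq_add_neg]; exact h.add h'.neg

theorem E2.smul {θ : Module.End K V} (c : K) (h : E2 A θ) : E2 A (c • θ) :=
  AlmostLE.smul_map c h

theorem E2.mul_right {θ φ : Module.End K V} (h : E2 A θ) (h' : EE A φ) : E2 A (θ * φ) := by
  unfold E2 at *
  rw [map_mul_eq]
  exact (AlmostLE.map h' θ).trans h

theorem E2.mul_left {θ : Module.End K V} (h : E2 A θ) (φ : Module.End K V) : E2 A (φ * θ) := by
  unfold E2 at *
  rw [map_mul_eq]
  have := AlmostLE.map h φ
  rwa [Submodule.map_bot] at this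

theorem E0.add {θ φ : Module.End K V} (h : E0 A θ) (h' : E0 A φ) : E0 A (θ + φ) :=
  ⟨h.1.add h'.1, h.2.add h'.2⟩

theorem E0.neg {θ : Module.End K V} (h : E0 A θ) : E0 A (-θ) := ⟨h.1.neg, h.2.neg⟩

theorem E0.sub {θ φ : Module.End K V} (h : E0 A θ) (h' : E0 A φ) : E0 A (θ - φ) :=
  ⟨h.1.sub h'.1, h.2.sub h'.2⟩

theorem E0.smul {θ : Module.End K V} (c : K) (h : E0 A θ) : E0 A (c • θ) :=
  ⟨h.1.smul c, h.2.smul c⟩

theorem E0.mul_right {θ φ : Module.End K V} (h : E0 A θ) (h' : EE A φ) : E0 A (θ * φ) :=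
  ⟨h.1.mul_right φ, h.2.mul_right h'⟩

theorem E0.mul_left {θ φ : Module.End K V} (h : E0 A θ) (h' : EE A φ) : E0 A (φ * θ) :=
  ⟨h.1.mul_left h', h.2.mul_left φ⟩

/-- A product `θ₁ θ₂` with `θ₁ ∈ E₂`, `θ₂ ∈ E₁` has finite rank. -/
theorem finiteDimensional_range_mul {θ₁ θ₂ : Module.End K V} (h1 : E2 A θ₁) (h2 : E1 A θ₂) :
    FiniteDimensional K (LinearMap.range (θ₁ * θ₂)) := by
  rw [range_mul_eq]
  exact ((AlmostLE.map h2 θ₁).trans h1).finiteDimensional

theorem E0.finPot {θ : Module.End K V} (h : E0 A θ) : FinPot θ :=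
  ⟨2, by rw [pow_two]; exact finiteDimensional_range_mul h.2 h.1⟩

/-- **Additivity of the trace on `E₀`.** -/
theorem fpTr_add_of_E0 {θ φ : Module.End K V} (h : E0 A θ) (h' : E0 A φ) :
    fpTr (θ + φ) = fpTr θ + fpTr φ := by
  have f1 := finiteDimensional_range_mul h.2 h.1
  have f2 := finiteDimensional_range_mul h.2 h'.1
  have f3 := finiteDimensional_range_mul h'.2 h.1
  have f4 := finiteDimensional_range_mul h'.2 h'.1
  set W : Submodule K V := LinearMap.range (θ * θ) ⊔ LinearMap.range (θ * φ) ⊔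
    LinearMap.range (φ * θ) ⊔ LinearMap.range (φ * φ) with hW
  have hfin : FiniteDimensional K W := by rw [hW]; infer_instance
  have m1 : LinearMap.range (θ * θ) ≤ W := le_sup_of_le_left (le_sup_of_le_left le_sup_left)
  have m2 : LinearMap.range (θ * φ) ≤ W := le_sup_of_le_left (le_sup_of_le_left le_sup_right)
  have m3 : LinearMap.range (φ * θ) ≤ W := le_sup_of_le_left le_sup_right
  have m4 : LinearMap.range (φ * φ) ≤ W := le_sup_right
  -- images of `W` under `θ`, `φ`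
  have key : ∀ (a : Module.End K V), (LinearMap.range (a * θ) ≤ W) →
      (LinearMap.range (a * φ) ≤ W) → ∀ x ∈ W, a x ∈ W := by
    intro a ha1 ha2 x hx
    have hle : W ≤ LinearMap.range θ ⊔ LinearMap.range φ := by
      rw [hW]
      refine sup_le (sup_le (sup_le ?_ ?_) ?_) ?_
      · rintro _ ⟨y, rfl⟩; exact Submodule.mem_sup_left ⟨θ y, rfl⟩
      · rintro _ ⟨y, rfl⟩; exact Submodule.mem_sup_left ⟨φ y, rfl⟩
      · rintro _ ⟨y, rfl⟩; exact Submodule.mem_sup_right ⟨θ y, rfl⟩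
      · rintro _ ⟨y, rfl⟩; exact Submodule.mem_sup_right ⟨φ y, rfl⟩
    obtain ⟨u, ⟨y, rfl⟩, w, ⟨z, rfl⟩, rfl⟩ := Submodule.mem_sup.mp (hle hx)
    rw [map_add]
    exact Submodule.add_mem _ (ha1 ⟨y, rfl⟩) (ha2 ⟨z, rfl⟩)
  have hθ : ∀ x ∈ W, θ x ∈ W := key θ m1 m2
  have hφ : ∀ x ∈ W, φ x ∈ W := key φ m3 m4
  refine fpTr_add_of_stable θ φ W hθ hφ 2 (by rw [pow_two]; exact m1)
    (by rw [pow_two]; exact m4) ?_
  rw [pow_two]
  rintro _ ⟨x, rfl⟩
  have : ((θ + φ) * (θ + φ)) x = (θ * θ) x + (θ * φ) x + (φ * θ) x + (φ * φ) x := by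
    simp only [Module.End.mul_apply, LinearMap.add_apply, map_add]
    abel
  rw [this]
  exact Submodule.add_mem _ (Submodule.add_mem _ (Submodule.add_mem _ (m1 ⟨x, rfl⟩)
    (m2 ⟨x, rfl⟩)) (m3 ⟨x, rfl⟩)) (m4 ⟨x, rfl⟩)

theorem fpTr_sub_of_E0 {θ φ : Module.End K V} (h : E0 A θ) (h' : E0 A φ) :
    fpTr (θ - φ) = fpTr θ - fpTr φ := by
  rw [sub_eq_add_neg, fpTr_add_of_E0 h h'.neg, fpTr_neg, sub_eq_add_neg]

/-- The trace kills commutators `[δ, g]` with `δ ∈ E₀`, `g ∈ EE`. -/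
theorem fpTr_commutator_eq_zero {δ g : Module.End K V} (hδ : E0 A δ) (hg : EE A g) :
    fpTr (δ * g - g * δ) = 0 := by
  rw [fpTr_sub_of_E0 (hδ.mul_right hg) (hδ.mul_left hg)]
  have := fpTr_comp_comm δ g (hδ.mul_right hg).finPot
  rw [Module.End.mul_eq_comp, Module.End.mul_eq_comp, this, sub_self]

/-- **Independence of the lift.** -/
theorem fpTr_commutator_congr {f₁ f₁' g : Module.End K V} (hδ : E0 A (f₁ - f₁'))
    (hg : EE A g) (h' : E0 A (f₁' * g - g * f₁')) :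
    fpTr (f₁ * g - g * f₁) = fpTr (f₁' * g - g * f₁') := by
  have e : f₁ * g - g * f₁ = (f₁' * g - g * f₁') + ((f₁ - f₁') * g - g * (f₁ - f₁')) := by
    noncomm_ring
  rw [e, fpTr_add_of_E0 h' ((hδ.mul_right hg).sub (hδ.mul_left hg)),
    fpTr_commutator_eq_zero hδ hg, add_zero]

end Fermat.Agent.Lib.RR.H80
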