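import Fermat.Agent.Lib.RR.H80.Res.Global
import Fermat.Agent.S24.H84.OrdDiff

/-!
# The divisor of a Kähler differential is a canonical divisor

`K` algebraically closed of characteristic `0`, `F/K` a function field (`FF1 K F`).
For `ω ∈ Ω[F/K]`, `ω ≠ 0`, the function `v ↦ v.ordDifferential ω` is a divisor `W` (finite
support) and `dim_K H¹(D) = ℓ(W - D)` for all `D` (`exists_canonical_kaehler`).  Hence
`deg W = 2 g - 2` with `g = genusFF K F`, `HasCanonicalDivisor`, and
`AlgebraicCurve.genus K F = genusFF K F`.

Method: Tate's residues.  `rho : F → Hom_K(𝔸, K)` is a `K`-derivation into the `F`-module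
`Hom_K(𝔸, K)`, hence factors through `Ω[F/K]` (`rhoK`).
-/

set_option autoImplicit false

noncomputable section

open AlgebraicCurve KaehlerDifferential

namespace Fermat.Agent.Lib.RR.H80

open Fermat.Agent.Lib.RR LinearMap Module

variable {K F : Type*} [Field K] [Field F] [Algebra K F]

variable (K F) in
/-- `Hom_K(𝔸, K)` with its `F`-module structure `(x ω)(α) = ω (x α)`. -/
def DualF : Type _ := Module.Dual K ↥(repartitions K F)

instance : AddCommGroup (DualF K F) :=
  inferInstanceAs (AddCommGroup (Module.Dual K ↥(repartitions K F)))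

instance : Module K (DualF K F) :=
  inferInstanceAs (Module K (Module.Dual K ↥(repartitions K F)))

/-- The underlying functional. -/
def DualF.fn (ω : DualF K F) : Module.Dual K ↥(repartitions K F) := ω

/-- Constructor. -/
def DualF.mk (ω : Module.Dual K ↥(repartitions K F)) : DualF K F := ω

@[simp] theorem DualF.fn_mk (ω : Module.Dual K ↥(repartitions K F)) : (DualF.mk ω).fn = ω := rfl

@[simp] theorem DualF.fn_add (ω ω' : DualF K F) : (ω + ω').fn = ω.fn + ω'.fn := rfl

@[simp] theorem DualF.fn_zero : (0 : DualF K F).fn = 0 := rfl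

@[simp] theorem DualF.fn_smulK (c : K) (ω : DualF K F) : (c • ω).fn = c • ω.fn := rfl

theorem DualF.ext {ω ω' : DualF K F} (h : ∀ α, ω.fn α = ω'.fn α) : ω = ω' :=
  LinearMap.ext h

instance : Module F (DualF K F) where
  smul x ω := DualF.mk (smulD x ω.fn)
  one_smul ω := smulD_one ω.fn
  mul_smul x y ω := (smulD_smulD x y ω.fn).symm
  smul_zero x := smulD_zero_right x
  smul_add x ω ω' := by
    apply DualF.ext
    intro α
    rfl
  add_smul x y ω := by
    apply DualF.ext
    intro α
    show ω.fn ((x + y) • α) = ω.fn (x • α) + ω.fn (y • α)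
    rw [add_smul, map_add]
  zero_smul ω := smulD_zero_left ω.fn

@[simp] theorem DualF.fn_smul (x : F) (ω : DualF K F) : (x • ω).fn = smulD x ω.fn := rfl

theorem DualF.smul_apply (x : F) (ω : DualF K F) (α : ↥(repartitions K F)) :
    (x • ω).fn α = ω.fn (x • α) := rfl

instance : IsScalarTower K F (DualF K F) where
  smul_assoc c x ω := by
    apply DualF.ext
    intro α
    show ω.fn ((c • x) • α) = c • ω.fn (x • α)
    rw [smul_assoc, map_smul]

variable [hFF : FF1 K F]

/-- `t ↦ rho t` as a derivation. -/
def rhoDer : Derivation K F (DualF K F) where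
  toFun t := DualF.mk (rho t)
  map_add' t s := rho_add t s
  map_smul' c t := rho_smul c t
  map_one_eq_zero' := rho_one
  leibniz' t s := by
    apply DualF.ext
    intro α
    show rho (t * s) α = rho s (t • α) + rho t (s • α)
    rw [rho_mul, add_comm]

@[simp] theorem rhoDer_apply (t : F) : (rhoDer (K := K) t).fn = rho t := rfl

/-- The Weil differential attached to a Kähler differential. -/
def rhoK : Ω[F⁄K] →ₗ[F] DualF K F := (rhoDer (K := K) (F := F)).liftKaehlerDifferential

theorem rhoK_D (t : F) : (rhoK (D K F t)).fn = rho t := by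
  unfold rhoK
  rw [Derivation.liftKaehlerDifferential_comp_D]
  rfl

theorem rhoK_smul_D (c t : F) (α : ↥(repartitions K F)) :
    (rhoK (c • D K F t)).fn α = rho t (c • α) := by
  rw [map_smul, DualF.smul_apply, rhoK_D]

/-! ### Local behaviour -/

theorem rhoK_singleA_eq_zero (v : Place K F) {π c a : F} (hπ : 0 ≤ v.ord π)
    (hca : 0 ≤ v.ord (c * a)) :
    (rhoK (c • D K F π)).fn (singleA v a) = 0 := by
  rw [rhoK_smul_D, smul_singleA]
  exact rho_singleA_eq_zero v hπ hca

theorem rhoK_singleA_eq_one (v : Place K F) {π c : F} (hπ : v.ord π = 1) (hc : c ≠ 0) :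
    (rhoK (c • D K F π)).fn (singleA v (c * π)⁻¹) = 1 := by
  have hπ0 : π ≠ 0 := ne_zero_of_ord_ne_zero v (by rw [hπ]; exact one_ne_zero)
  rw [rhoK_smul_D, smul_singleA]
  have : c * (c * π)⁻¹ = π⁻¹ := by
    field_simp
  rw [this]
  exact rho_unif v hπ

omit hFF in
theorem mul_mem_A0 {E : Divisor K F} {η α : ↥(repartitions K F)} (hη : η ∈ repartitionsOf E)
    (hα : α ∈ repartitionsOf (-E)) : η * α ∈ repartitionsOf (0 : Divisor K F) := by
  intro v
  have h1 := hη v
  have h2 := hα v
  show v.adicValuation ((η : Place K F → F) v * (α : Place K F → F) v) ≤ _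
  rw [map_mul]
  calc v.adicValuation ((η : Place K F → F) v) * v.adicValuation ((α : Place K F → F) v)
      ≤ WithZero.exp (E v) * WithZero.exp ((-E) v) := mul_le_mul' h1 h2
    _ = WithZero.exp ((0 : Divisor K F) v) := by
      rw [← WithZero.exp_add, Finsupp.neg_apply, add_neg_cancel, Finsupp.coe_zero, Pi.zero_apply]

/-- `rhoK ω` is a Weil differential: it vanishes on `𝔸(A₀) + F` for some divisor `A₀`. -/
theorem exists_rhoK_mem_Om [CharZero K] (ω : Ω[F⁄K]) :
    ∃ A₀ : Divisor K F, (rhoK ω).fn ∈ Om A₀ := by
  classical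
  obtain ⟨j, hjtr, hjfin⟩ := FF1.exists_finite (K := K) (F := F)
  have := hjfin
  have hA : Algebra.IsAlgebraic ↥(IntermediateField.adjoin K {j}) F :=
    Algebra.IsAlgebraic.of_finite _ _
  have hω : ω ∈ Submodule.span F {D K F j} := by
    rw [Fermat.Agent.S24.H84.span_D_eq_top j]
    trivial
  obtain ⟨h, rfl⟩ := Submodule.mem_span_singleton.1 hω
  have hj0 : j ≠ 0 := by
    rintro rfl
    exact hjtr (isAlgebraic_zero)
  set S : Set (Place K F) := {v | v.ord j < 0} with hS
  set η : ↥(repartitions K F) :=
    indA S * H980.diag (j ^ 2 * h) + indA Sᶜ * H980.diag h with hη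
  obtain ⟨E, hE⟩ := H742.exists_mem_repartitionsOf η
  have hηin : ∀ v ∈ S, (η : Place K F → F) v = j ^ 2 * h := by
    intro v hv
    rw [hη, H980.val_apply_add, coe_mul_apply, coe_mul_apply, indA_apply_of_mem hv,
      indA_apply_of_not_mem (show v ∉ Sᶜ from fun hc => hc hv), H980.diag_apply,
      H980.diag_apply, one_mul, zero_mul, add_zero]
  have hηout : ∀ v ∉ S, (η : Place K F → F) v = h := by
    intro v hv
    rw [hη, H980.val_apply_add, coe_mul_apply, coe_mul_apply, indA_apply_of_not_mem hv,
      indA_apply_of_mem (show v ∈ Sᶜ from hv), H980.diag_apply, H980.diag_apply, one_mul,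
      zero_mul, zero_add]
  refine ⟨-E, mem_Om_iff.mpr ⟨fun α hα => ?_, fun α hα => ?_⟩⟩
  · have hint := mem_A0_iff.mp (mul_mem_A0 hE hα)
    rw [rhoK_smul_D]
    have hsplit : h • α = indA S * (h • α) + indA Sᶜ * (h • α) := by
      apply Subtype.ext
      funext v
      rw [H980.val_apply_add, coe_mul_apply, coe_mul_apply]
      by_cases hv : v ∈ S
      · rw [indA_apply_of_mem hv, indA_apply_of_not_mem (show v ∉ Sᶜ from fun hc => hc hv), one_mul, zero_mul,
          add_zero]
      · rw [indA_apply_of_not_mem hv, indA_apply_of_mem (show v ∈ Sᶜ from hv), one_mul, zero_mul,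
          zero_add]
    rw [hsplit, map_add]
    have h2 : rho j (indA Sᶜ * (h • α)) = 0 := by
      refine rho_eq_zero_of_integral j _ fun v => ?_
      by_cases hv : v ∈ S
      · left
        rw [coe_mul_apply, indA_apply_of_not_mem (show v ∉ Sᶜ from fun hc => hc hv), zero_mul]
      · right
        refine ⟨?_, not_lt.mp hv⟩
        have := hint v
        rw [coe_mul_apply, hηout v hv] at this
        rw [coe_mul_apply, indA_apply_of_mem (show v ∈ Sᶜ from hv), one_mul, coe_smul_apply]
        exact this
    have h1 : rho j (indA S * (h • α)) = 0 := by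
      have hD : D K F j = (-j ^ 2) • D K F j⁻¹ :=
        (D K F).leibniz_of_mul_eq_one (mul_inv_cancel₀ hj0)
      have e1 : rho j (indA S * (h • α)) = (rhoK (D K F j)).fn (indA S * (h • α)) := by
        rw [rhoK_D]
      rw [e1, hD, rhoK_smul_D]
      refine rho_eq_zero_of_integral j⁻¹ _ fun v => ?_
      by_cases hv : v ∈ S
      · right
        refine ⟨?_, ?_⟩
        · have := hint v
          rw [coe_mul_apply, hηin v hv] at this
          rw [coe_smul_apply, coe_mul_apply, indA_apply_of_mem hv, one_mul, coe_smul_apply,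
            neg_mul, ord_neg, ← mul_assoc]
          exact this
        · rw [Place.ord_inv]
          have : v.ord j < 0 := hv
          omega
      · left
        rw [coe_smul_apply, coe_mul_apply, indA_apply_of_not_mem hv, zero_mul, mul_zero]
    rw [h1, h2, add_zero]
  · rw [rhoK_smul_D]
    exact rho_principal j (smul_mem_principal h hα)

omit hFF in
theorem singleA_mem_repartitionsOf (W : Divisor K F) (v : Place K F) {a : F}
    (ha : a = 0 ∨ -W v ≤ v.ord a) : singleA v a ∈ repartitionsOf W := by
  rw [mem_repartitionsOf_iff]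
  intro w
  by_cases hw : w = v
  · subst hw
    rw [singleA_apply_self]
    exact ha
  · left
    exact singleA_apply_of_ne _ _ hw

/-! ### The main theorem -/

/-- **Bridge**: the divisor of a nonzero Kähler differential exists and is a canonical divisor in
the sense of Riemann–Roch. -/
theorem exists_canonical_kaehler [IsAlgClosed K] [CharZero K] (ω : Ω[F⁄K]) (hω : ω ≠ 0) :
    ∃ W : Divisor K F, (∀ v : Place K F, W v = v.ordDifferential ω) ∧
      ∀ D : Divisor K F, Module.finrank K (H1 D) = ell (W - D) := by
  obtain ⟨j, -, hjfin⟩ := FF1.exists_finite (K := K) (F := F)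
  have := hjfin
  have hloc : ∀ v : Place K F, ∃ π c : F, v.ord π = 1 ∧ c ≠ 0 ∧ ω = c • D K F π ∧
      v.ordDifferential ω = v.ord c := by
    intro v
    have hgen : v.DCoordGenerates := Fermat.Agent.S24.H84.place_dCoordGenerates j v
    obtain ⟨π, hπ, hd⟩ := Fermat.Agent.S24.H84.place_exists_uniformizer v
    refine ⟨π, v.differentialCoeff ω, hπ, ?_, ?_, rfl⟩
    · intro h0
      apply hω
      rw [← v.differentialCoeff_smul_dCoord ω, h0, zero_smul]
    · rw [← hd, v.differentialCoeff_smul_dCoord]
  have hR0 : (rhoK ω).fn ≠ 0 := by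
    obtain ⟨v⟩ := FF1.nonempty_place (K := K) (F := F)
    obtain ⟨π, c, hπ, hc, hω', -⟩ := hloc v
    intro h0
    have h1 := rhoK_singleA_eq_one v hπ hc
    rw [← hω', h0, LinearMap.zero_apply] at h1
    exact zero_ne_one h1
  obtain ⟨A₀, hA₀⟩ := exists_rhoK_mem_Om ω
  obtain ⟨W, hW⟩ := exists_divisor_of_ne_zero (g := (genusR K F : ℤ)) finite_H1
    ell_sub_finrank_H1 exists_degree_bound hA₀ hR0
  have hWW : (rhoK ω).fn ∈ Om W := (hW W).mpr le_rfl
  have hWv : ∀ v : Place K F, W v = v.ordDifferential ω := by
    intro v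
    obtain ⟨π, c, hπ, hc, hω', hord⟩ := hloc v
    have hπ0 : π ≠ 0 := ne_zero_of_ord_ne_zero v (by rw [hπ]; exact one_ne_zero)
    rw [hord]
    apply le_antisymm
    · by_contra hlt
      rw [not_le] at hlt
      have hmem : singleA v (c * π)⁻¹ ∈ repartitionsOf W := by
        apply singleA_mem_repartitionsOf
        right
        rw [Place.ord_inv, v.ord_mul hc hπ0, hπ]
        omega
      have h0 := (mem_Om_iff.mp hWW).1 _ hmem
      have h1 := rhoK_singleA_eq_one v hπ hc
      rw [← hω', h0] at h1
      exact zero_ne_one h1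
    · by_contra hlt
      rw [not_le] at hlt
      have hmem : (rhoK ω).fn ∈ Om (W + prim v) := by
        refine mem_Om_iff.mpr ⟨fun α hα => ?_, (mem_Om_iff.mp hWW).2⟩
        rw [mem_repartitionsOf_iff] at hα
        obtain ⟨a, ha⟩ : ∃ a : F, a = (α : Place K F → F) v := ⟨_, rfl⟩
        have hβ : α - singleA v a ∈ repartitionsOf W := by
          rw [mem_repartitionsOf_iff]
          intro w
          by_cases hw : w = v
          · left
            subst hw
            show (α : Place K F → F) w - ((singleA w a : ↥(repartitions K F)) : Place K F → F) w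
              = 0
            rw [singleA_apply_self, ha, sub_self]
          · have e : ((α - singleA v a : ↥(repartitions K F)) : Place K F → F) w
                = (α : Place K F → F) w := by
              show (α : Place K F → F) w -
                ((singleA v a : ↥(repartitions K F)) : Place K F → F) w = _
              rw [singleA_apply_of_ne _ _ hw, sub_zero]
            rw [e]
            have := hα w
            rwa [Finsupp.add_apply, prim_apply_of_ne hw, add_zero] at this
        have h1 : (rhoK ω).fn (α - singleA v a) = 0 := (mem_Om_iff.mp hWW).1 _ hβ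
        have h2 : (rhoK ω).fn (singleA v a) = 0 := by
          rw [hω']
          apply rhoK_singleA_eq_zero v (by rw [hπ]; exact zero_le_one)
          rcases eq_or_ne a 0 with h0 | h0
          · rw [h0, mul_zero, Place.ord_zero]
          · have := hα v
            rw [Finsupp.add_apply, prim_apply_self, ← ha] at this
            rcases this with h | h
            · exact absurd h h0
            · rw [v.ord_mul hc h0]
              omega
        have : α = (α - singleA v a) + singleA v a := by abel
        rw [this, map_add, h1, h2, add_zero]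
      have hle := (hW _).mp hmem
      have := Finsupp.le_def.mp hle v
      rw [Finsupp.add_apply, prim_apply_self] at this
      omega
  refine ⟨W, hWv, fun D => ?_⟩
  rw [← finrank_Om, ← map_muMap_eq_Om finite_H1 ell_sub_finrank_H1 hR0 hW D,
    finrank_map_muMap hR0]

/-- A canonical divisor has degree `2g - 2`. -/
theorem degree_eq_of_canonical {W : Divisor K F}
    (hW : ∀ D : Divisor K F, Module.finrank K (H1 D) = ell (W - D)) :
    Divisor.degree W = 2 * (genusFF K F : ℤ) - 2 := by
  have h0 : ell W = genusFF K F := by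
    have := hW 0
    rw [sub_zero] at this
    rw [← this]
    rfl
  have h1 := riemann_roch_H1 W
  rw [hW W, sub_self, ell_zero, h0] at h1
  push_cast at h1
  omega

variable [IsAlgClosed K] [CharZero K]

/-- `deg div(ω) = 2g - 2` for a nonzero Kähler differential. -/
theorem degree_kaehler {ω : Ω[F⁄K]} (hω : ω ≠ 0) {W : Divisor K F}
    (hW : ∀ v : Place K F, W v = v.ordDifferential ω) :
    Divisor.degree W = 2 * (genusFF K F : ℤ) - 2 := by
  obtain ⟨W', hW', hcan⟩ := exists_canonical_kaehler ω hω
  have : W = W' := Finsupp.ext fun v => by rw [hW, hW']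
  rw [this]
  exact degree_eq_of_canonical hcan

/-- the divisor of a Kähler differential is canonical -/
theorem finrank_H1_eq_ell_kaehler {ω : Ω[F⁄K]} (hω : ω ≠ 0) {W : Divisor K F}
    (hW : ∀ v : Place K F, W v = v.ordDifferential ω) (D : Divisor K F) :
    Module.finrank K (H1 D) = ell (W - D) := by
  obtain ⟨W', hW', hcan⟩ := exists_canonical_kaehler ω hω
  have : W = W' := Finsupp.ext fun v => by rw [hW, hW']
  rw [this]
  exact hcan D

variable (K F) in
theorem hasCanonicalDivisor_of_FF1 : HasCanonicalDivisor (K := K) (F := F) :=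
  ⟨fun ω hω => by
    obtain ⟨W, hW, -⟩ := exists_canonical_kaehler ω hω
    exact ⟨W, hW⟩⟩

omit [IsAlgClosed K] [CharZero K] in
variable (K F) in
theorem exists_kaehler_ne_zero : ∃ ω : Ω[F⁄K], ω ≠ 0 := by
  obtain ⟨v⟩ := FF1.nonempty_place (K := K) (F := F)
  obtain ⟨π, hπ⟩ := exists_ord_eq_one v
  refine ⟨D K F π, fun h0 => ?_⟩
  have h1 := rho_unif v hπ
  rw [← rhoK_D, h0, map_zero] at h1
  exact zero_ne_one h1

theorem degree_canonicalDivisorOf [HasCanonicalDivisor (K := K) (F := F)] {ω : Ω[F⁄K]}
    (hω : ω ≠ 0) :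
    Divisor.degree (canonicalDivisorOf hω) = 2 * (genusFF K F : ℤ) - 2 :=
  degree_kaehler hω (canonicalDivisorOf_apply hω)

variable (K F) in
/-- **The Kähler genus is the adelic genus.** -/
theorem genus_eq_genusFF [HasCanonicalDivisor (K := K) (F := F)] :
    AlgebraicCurve.genus K F = genusFF K F := by
  have hex := exists_kaehler_ne_zero K F
  unfold AlgebraicCurve.genus
  rw [dif_pos hex, degree_canonicalDivisorOf hex.choose_spec]
  have : (2 * (genusFF K F : ℤ) - 2 + 2).toNat = 2 * genusFF K F := by omega
  rw [this, Nat.mul_div_cancel_left _ (by norm_num : 0 < 2)]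

end Fermat.Agent.Lib.RR.H80
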