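import Fermat.Agent.Lib.RR.H80.Res.Bridge

/-!
# The bridge in arbitrary characteristic

`FF1 K F` only (no assumption on the characteristic, `K` need not be algebraically closed).

* `rhoK_principal` : every `rhoK ω` vanishes on principal adeles (residue theorem);
* `exists_rhoK_mem_Om_gen` : every `rhoK ω` is a Weil differential;
* `exists_canonical_of_local` : if at every place `ω = c_v dπ_v` with `π_v` a uniformizer and
  `c_v ≠ 0`, then `v ↦ ord_v c_v` is a canonical divisor `W` and `rhoK ω ∈ Ω(D) ↔ D ≤ W`;
* `rhoK_mem_Om_of_local` : local criterion for `rhoK ω ∈ Ω(D)` (e.g. `D = 0`: holomorphic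
  differentials give elements of `Ω(0)`, a space of dimension `genusFF`);
* `finrank_le_genusFF_of_holo` : a finite-dimensional space of holomorphic differentials has
  dimension `≤ genusFF K F`.
-/

set_option autoImplicit false

noncomputable section

open AlgebraicCurve KaehlerDifferential

namespace Fermat.Agent.Lib.RR.H80

open Fermat.Agent.Lib.RR LinearMap Module

variable {K F : Type*} [Field K] [Field F] [Algebra K F] [hFF : FF1 K F]

/-- `dπ ≠ 0` for a uniformizer `π` (any characteristic). -/
theorem dKaehler_ne_zero (v : Place K F) {π : F} (hπ : v.ord π = 1) : D K F π ≠ 0 := by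
  intro h0
  have h1 := rho_unif v hπ
  rw [← rhoK_D, h0, map_zero] at h1
  exact zero_ne_one h1

/-- The residue theorem for Kähler differentials: `rhoK ω` vanishes on principal adeles. -/
theorem rhoK_principal (ω : Ω[F⁄K]) {α : ↥(repartitions K F)}
    (hα : α ∈ principalRepartitions K F) : (rhoK ω).fn α = 0 := by
  have hω : ω ∈ Submodule.span F (Set.range (D K F)) := by
    rw [KaehlerDifferential.span_range_derivation]
    trivial
  induction hω using Submodule.span_induction generalizing α with
  | mem x hx =>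
    obtain ⟨j, rfl⟩ := hx
    rw [rhoK_D]
    exact rho_principal j hα
  | zero => rw [map_zero]; rfl
  | add x y _ _ hx hy =>
    rw [map_add, DualF.fn_add, LinearMap.add_apply, hx hα, hy hα, add_zero]
  | smul a x _ hx =>
    rw [map_smul, DualF.smul_apply]
    exact hx (smul_mem_principal a hα)

/-- `rho j` is a Weil differential. -/
theorem exists_rho_mem_Om (j : F) : ∃ A₀ : Divisor K F, rho j ∈ Om A₀ := by
  classical
  rcases eq_or_ne j 0 with rfl | hj0
  · refine ⟨0, ?_⟩
    have : rho (K := K) (0 : F) = 0 := by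
      have h := rhoK_D (K := K) (0 : F)
      rw [map_zero, map_zero] at h
      exact h.symm
    rw [this]
    exact Submodule.zero_mem _
  set S : Set (Place K F) := {v | v.ord j < 0} with hS
  set η : ↥(repartitions K F) :=
    indA S * H980.diag (j ^ 2) + indA Sᶜ with hη
  obtain ⟨E, hE⟩ := H742.exists_mem_repartitionsOf η
  have hηin : ∀ v ∈ S, (η : Place K F → F) v = j ^ 2 := by
    intro v hv
    rw [hη, H980.val_apply_add, coe_mul_apply, indA_apply_of_mem hv,
      indA_apply_of_not_mem (show v ∉ Sᶜ from fun hc => hc hv), H980.diag_apply, one_mul,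
      add_zero]
  have hηout : ∀ v ∉ S, (η : Place K F → F) v = 1 := by
    intro v hv
    rw [hη, H980.val_apply_add, coe_mul_apply, indA_apply_of_not_mem hv,
      indA_apply_of_mem (show v ∈ Sᶜ from hv), zero_mul, zero_add]
  refine ⟨-E, mem_Om_iff.mpr ⟨fun α hα => ?_, fun α hα => rho_principal j hα⟩⟩
  have hint := mem_A0_iff.mp (mul_mem_A0 hE hα)
  have hsplit : α = indA S * α + indA Sᶜ * α := by
    apply Subtype.ext
    funext v
    rw [H980.val_apply_add, coe_mul_apply, coe_mul_apply]
    by_cases hv : v ∈ S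
    · rw [indA_apply_of_mem hv, indA_apply_of_not_mem (show v ∉ Sᶜ from fun hc => hc hv),
        one_mul, zero_mul, add_zero]
    · rw [indA_apply_of_not_mem hv, indA_apply_of_mem (show v ∈ Sᶜ from hv), one_mul, zero_mul,
        zero_add]
  rw [hsplit, map_add]
  have h2 : rho j (indA Sᶜ * α) = 0 := by
    refine rho_eq_zero_of_integral j _ fun v => ?_
    by_cases hv : v ∈ S
    · left
      rw [coe_mul_apply, indA_apply_of_not_mem (show v ∉ Sᶜ from fun hc => hc hv), zero_mul]
    · right
      refine ⟨?_, not_lt.mp hv⟩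
      have := hint v
      rw [coe_mul_apply, hηout v hv, one_mul] at this
      rw [coe_mul_apply, indA_apply_of_mem (show v ∈ Sᶜ from hv), one_mul]
      exact this
  have h1 : rho j (indA S * α) = 0 := by
    have hD : D K F j = (-j ^ 2) • D K F j⁻¹ :=
      (D K F).leibniz_of_mul_eq_one (mul_inv_cancel₀ hj0)
    have e1 : rho j (indA S * α) = (rhoK (D K F j)).fn (indA S * α) := by
      rw [rhoK_D]
    rw [e1, hD, rhoK_smul_D]
    refine rho_eq_zero_of_integral j⁻¹ _ fun v => ?_
    by_cases hv : v ∈ S
    · right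
      refine ⟨?_, ?_⟩
      · have := hint v
        rw [coe_mul_apply, hηin v hv] at this
        rw [coe_smul_apply, coe_mul_apply, indA_apply_of_mem hv, one_mul, neg_mul, ord_neg]
        exact this
      · rw [Place.ord_inv]
        have : v.ord j < 0 := hv
        omega
    · left
      rw [coe_smul_apply, coe_mul_apply, indA_apply_of_not_mem hv, zero_mul, mul_zero]
  rw [h1, h2, add_zero]

/-- Every `rhoK ω` is a Weil differential: it vanishes on `𝔸(A₀) + F` for some divisor `A₀`. -/
theorem exists_rhoK_mem_Om_gen (ω : Ω[F⁄K]) : ∃ A₀ : Divisor K F, (rhoK ω).fn ∈ Om A₀ := by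
  have hω : ω ∈ Submodule.span F (Set.range (D K F)) := by
    rw [KaehlerDifferential.span_range_derivation]
    trivial
  induction hω using Submodule.span_induction with
  | mem x hx =>
    obtain ⟨j, rfl⟩ := hx
    obtain ⟨A₀, hA₀⟩ := exists_rho_mem_Om (K := K) j
    exact ⟨A₀, by rw [rhoK_D]; exact hA₀⟩
  | zero =>
    refine ⟨0, ?_⟩
    rw [map_zero]
    exact Submodule.zero_mem _
  | add x y _ _ hx hy =>
    obtain ⟨A, hA⟩ := hx
    obtain ⟨B, hB⟩ := hy
    refine ⟨A ⊓ B, ?_⟩
    rw [map_add]
    exact Submodule.add_mem _ (Om_anti inf_le_left hA) (Om_anti inf_le_right hB)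
  | smul a x _ hx =>
    obtain ⟨A, hA⟩ := hx
    rcases eq_or_ne a 0 with rfl | ha
    · refine ⟨0, ?_⟩
      rw [zero_smul, map_zero]
      exact Submodule.zero_mem _
    · refine ⟨A + divOf a ha, ?_⟩
      rw [map_smul]
      exact smulD_mem_Om ha (fun v => divOf_apply a ha v) hA

/-- **Bridge, any characteristic.**  If at every place `ω = c dπ` with `π` a uniformizer and
`c ≠ 0`, then `v ↦ ord_v c` is a canonical divisor `W`, and it is the divisor of the Weil
differential `rhoK ω`. -/
theorem exists_canonical_of_local (ω : Ω[F⁄K])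
    (hloc : ∀ v : Place K F, ∃ π c : F, v.ord π = 1 ∧ c ≠ 0 ∧ ω = c • D K F π) :
    ∃ W : Divisor K F,
      (∀ (v : Place K F) (π c : F), v.ord π = 1 → ω = c • D K F π → W v = v.ord c) ∧
      (∀ D : Divisor K F, (rhoK ω).fn ∈ Om D ↔ D ≤ W) ∧
      ∀ D : Divisor K F, Module.finrank K (H1 D) = ell (W - D) := by
  have hR0 : (rhoK ω).fn ≠ 0 := by
    obtain ⟨v⟩ := FF1.nonempty_place (K := K) (F := F)
    obtain ⟨π, c, hπ, hc, hω'⟩ := hloc v
    intro h0
    have h1 := rhoK_singleA_eq_one v hπ hc
    rw [← hω', h0, LinearMap.zero_apply] at h1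
    exact zero_ne_one h1
  obtain ⟨A₀, hA₀⟩ := exists_rhoK_mem_Om_gen ω
  obtain ⟨W, hW⟩ := exists_divisor_of_ne_zero (g := (genusR K F : ℤ)) finite_H1
    ell_sub_finrank_H1 exists_degree_bound hA₀ hR0
  have hWW : (rhoK ω).fn ∈ Om W := (hW W).mpr le_rfl
  have hWv : ∀ (v : Place K F) (π c : F), v.ord π = 1 → ω = c • D K F π → W v = v.ord c := by
    intro v π c hπ hω'
    have hπ0 : π ≠ 0 := ne_zero_of_ord_ne_zero v (by rw [hπ]; exact one_ne_zero)
    have hc : c ≠ 0 := by
      rintro rfl
      apply hR0
      rw [hω', zero_smul, map_zero]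
      rfl
    apply le_antisymm
    · by_contra hlt
      rw [not_le] at hlt
      have hmem : singleA v (c * π)⁻¹ ∈ repartitionsOf W := by
        apply singleA_mem_repartitionsOf
        right
        rw [Place.ord_inv, v.ord_mul hc hπ0, hπ]
        omega
      have h0 := (mem_Om_iff.mp hWW).1 _ hmem
      have h1 := rhoK_singleA_eq_one v hπ hc
      rw [← hω', h0] at h1
      exact zero_ne_one h1
    · by_contra hlt
      rw [not_le] at hlt
      have hmem : (rhoK ω).fn ∈ Om (W + prim v) := by
        refine mem_Om_iff.mpr ⟨fun α hα => ?_, (mem_Om_iff.mp hWW).2⟩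
        rw [mem_repartitionsOf_iff] at hα
        obtain ⟨a, ha⟩ : ∃ a : F, a = (α : Place K F → F) v := ⟨_, rfl⟩
        have hβ : α - singleA v a ∈ repartitionsOf W := by
          rw [mem_repartitionsOf_iff]
          intro w
          by_cases hw : w = v
          · left
            subst hw
            show (α : Place K F → F) w - ((singleA w a : ↥(repartitions K F)) : Place K F → F) w
              = 0
            rw [singleA_apply_self, ha, sub_self]
          · have e : ((α - singleA v a : ↥(repartitions K F)) : Place K F → F) w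
                = (α : Place K F → F) w := by
              show (α : Place K F → F) w -
                ((singleA v a : ↥(repartitions K F)) : Place K F → F) w = _
              rw [singleA_apply_of_ne _ _ hw, sub_zero]
            rw [e]
            have := hα w
            rwa [Finsupp.add_apply, prim_apply_of_ne hw, add_zero] at this
        have h1 : (rhoK ω).fn (α - singleA v a) = 0 := (mem_Om_iff.mp hWW).1 _ hβ
        have h2 : (rhoK ω).fn (singleA v a) = 0 := by
          rw [hω']
          apply rhoK_singleA_eq_zero v (by rw [hπ]; exact zero_le_one)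
          rcases eq_or_ne a 0 with h0 | h0
          · rw [h0, mul_zero, Place.ord_zero]
          · have := hα v
            rw [Finsupp.add_apply, prim_apply_self, ← ha] at this
            rcases this with h | h
            · exact absurd h h0
            · rw [v.ord_mul hc h0]
              omega
        have : α = (α - singleA v a) + singleA v a := by abel
        rw [this, map_add, h1, h2, add_zero]
      have hle := (hW _).mp hmem
      have := Finsupp.le_def.mp hle v
      rw [Finsupp.add_apply, prim_apply_self] at this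
      omega
  refine ⟨W, hWv, hW, fun D => ?_⟩
  rw [← finrank_Om, ← map_muMap_eq_Om finite_H1 ell_sub_finrank_H1 hR0 hW D,
    finrank_map_muMap hR0]

/-- Local criterion: `rhoK ω ∈ Ω(D)` if at every place `ω = c dπ` with `π` a uniformizer and
`c = 0 ∨ D v ≤ ord_v c`.  No global hypothesis on `ω`. -/
theorem rhoK_mem_Om_of_local (ω : Ω[F⁄K]) (A : Divisor K F)
    (hloc : ∀ v : Place K F, ∃ π c : F, v.ord π = 1 ∧ ω = c • D K F π ∧ (c = 0 ∨ A v ≤ v.ord c)) :
    (rhoK ω).fn ∈ Om A := by
  by_cases hω : ω = 0
  · rw [hω, map_zero]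
    exact Submodule.zero_mem _
  have hloc' : ∀ v : Place K F, ∃ π c : F, v.ord π = 1 ∧ c ≠ 0 ∧ ω = c • D K F π := by
    intro v
    obtain ⟨π, c, hπ, hω', -⟩ := hloc v
    refine ⟨π, c, hπ, ?_, hω'⟩
    rintro rfl
    exact hω (by rw [hω', zero_smul])
  obtain ⟨W, hWv, hW, -⟩ := exists_canonical_of_local ω hloc'
  rw [hW]
  rw [Finsupp.le_def]
  intro v
  obtain ⟨π, c, hπ, hω', hc⟩ := hloc v
  rw [hWv v π c hπ hω']
  rcases hc with rfl | hc
  · exact absurd (by rw [hω', zero_smul]) hω
  · exact hc

/-- `rhoK` is injective on differentials which are locally of the form `c dπ`. -/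
theorem rhoK_ne_zero_of_local {ω : Ω[F⁄K]} {v : Place K F} {π c : F} (hπ : v.ord π = 1)
    (hc : c ≠ 0) (hω : ω = c • D K F π) : (rhoK ω).fn ≠ 0 := by
  intro h0
  have h1 := rhoK_singleA_eq_one v hπ hc
  rw [← hω, h0, LinearMap.zero_apply] at h1
  exact zero_ne_one h1

/-- `rhoK` as a `K`-linear map into the Weil differentials `Hom_K(𝔸, K)`. -/
def rhoKL : Ω[F⁄K] →ₗ[K] Module.Dual K ↥(repartitions K F) where
  toFun ω := (rhoK ω).fn
  map_add' ω ω' := by rw [map_add]; rfl
  map_smul' c ω := by
    rw [← algebraMap_smul F c ω, map_smul]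
    apply LinearMap.ext
    intro α
    show (rhoK ω).fn (algebraMap K F c • α) = c • (rhoK ω).fn α
    rw [algebraMap_smul, map_smul]

@[simp] theorem rhoKL_apply (ω : Ω[F⁄K]) : rhoKL (K := K) ω = (rhoK ω).fn := rfl

/-- If `Ω[F/K]` is spanned by one element, `rhoKL` is injective. -/
theorem rhoKL_injective_of_span {ω₀ : Ω[F⁄K]} (hspan : Submodule.span F {ω₀} = ⊤) :
    Function.Injective (rhoKL (K := K) (F := F)) := by
  rw [← LinearMap.ker_eq_bot, eq_bot_iff]
  intro ω hω
  rw [LinearMap.mem_ker, rhoKL_apply] at hω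
  rw [Submodule.mem_bot]
  by_contra hne
  obtain ⟨v⟩ := FF1.nonempty_place (K := K) (F := F)
  obtain ⟨π, hπ⟩ := exists_ord_eq_one v
  have hmem : D K F π ∈ Submodule.span F {ω₀} := by rw [hspan]; trivial
  obtain ⟨a, ha⟩ := Submodule.mem_span_singleton.1 hmem
  have hmem' : ω ∈ Submodule.span F {ω₀} := by rw [hspan]; trivial
  obtain ⟨b, hb⟩ := Submodule.mem_span_singleton.1 hmem'
  have ha0 : a ≠ 0 := by
    rintro rfl
    rw [zero_smul] at ha
    exact dKaehler_ne_zero v hπ ha.symm
  have hb0 : b ≠ 0 := by
    rintro rfl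
    rw [zero_smul] at hb
    exact hne hb.symm
  have hω' : ω = (b * a⁻¹) • D K F π := by
    rw [← ha, smul_smul, mul_assoc, inv_mul_cancel₀ ha0, mul_one, hb]
  exact rhoK_ne_zero_of_local hπ (mul_ne_zero hb0 (inv_ne_zero ha0)) hω' hω

/-- **Holomorphic differentials**: a `K`-subspace `H` of `Ω[F/K]` all of whose elements are
locally `c dπ` with `c` integral has dimension at most the genus `genusFF K F`, provided
`Ω[F/K]` is spanned by one element. -/
theorem finrank_le_genusFF_of_holo {ω₀ : Ω[F⁄K]} (hspan : Submodule.span F {ω₀} = ⊤)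
    (H : Submodule K Ω[F⁄K])
    (hH : ∀ ω ∈ H, ∀ v : Place K F, ∃ π c : F, v.ord π = 1 ∧ ω = c • D K F π ∧ 0 ≤ v.ord c) :
    Module.finrank K H ≤ genusFF K F := by
  have hfin : Module.Finite K (H1 (0 : Divisor K F)) := finite_H1 0
  have hfinOm : Module.Finite K (Om (0 : Divisor K F)) := finite_Om 0
  have hmap : ∀ ω ∈ H, rhoKL (K := K) ω ∈ Om (0 : Divisor K F) := by
    intro ω hω
    rw [rhoKL_apply]
    refine rhoK_mem_Om_of_local ω 0 fun v => ?_
    obtain ⟨π, c, hπ, hω', hc⟩ := hH ω hω v
    exact ⟨π, c, hπ, hω', Or.inr (by simpa using hc)⟩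
  let φ : H →ₗ[K] Om (0 : Divisor K F) :=
    (rhoKL.domRestrict H).codRestrict (Om 0) fun x => hmap x.1 x.2
  have hφ : Function.Injective φ := by
    intro x y hxy
    have h := congrArg Subtype.val hxy
    exact Subtype.ext (rhoKL_injective_of_span hspan h)
  calc Module.finrank K H ≤ Module.finrank K (Om (0 : Divisor K F)) :=
        LinearMap.finrank_le_finrank_of_injective hφ
    _ = Module.finrank K (H1 (0 : Divisor K F)) := finrank_Om 0
    _ = genusFF K F := rfl

end Fermat.Agent.Lib.RR.H80
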