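import Mathlib

/-!
# Traces of finite-potent endomorphisms (Tate, *Residues of differentials on curves*, §1)

`FinPot θ` : some power of `θ` has finite-dimensional range.
`fpTr θ`   : the trace of `θ` on the range of such a power (`0` if `θ` is not finite-potent).

Main lemma `fpTr_eq_trace_restrict`: the trace can be computed on any finite-dimensional
`θ`-stable subspace containing the range of some power of `θ`.
-/

set_option autoImplicit false

noncomputable section

namespace Fermat.Agent.Lib.RR.H80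

open LinearMap Module

variable {K V V' : Type*} [Field K] [AddCommGroup V] [Module K V] [AddCommGroup V'] [Module K V']

/-- `θ` is finite-potent: some power has finite-dimensional range. -/
def FinPot (θ : Module.End K V) : Prop :=
  ∃ n : ℕ, FiniteDimensional K (LinearMap.range (θ ^ n))

theorem range_pow_stable (θ : Module.End K V) (n : ℕ) :
    ∀ x ∈ LinearMap.range (θ ^ n), θ x ∈ LinearMap.range (θ ^ n) := by
  rintro x ⟨y, rfl⟩
  refine ⟨θ y, ?_⟩
  rw [← Module.End.mul_apply, ← Module.End.mul_apply, ← pow_succ, ← pow_succ']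

open Classical in
def fpTr (θ : Module.End K V) : K :=
  if h : FinPot θ then
    LinearMap.trace K (LinearMap.range (θ ^ h.choose)) (θ.restrict (range_pow_stable θ h.choose))
  else 0

theorem trace_restrict_eq_of_map_le (θ : Module.End K V) {W W' : Submodule K V}
    [FiniteDimensional K W] [FiniteDimensional K W'] (hle : W' ≤ W)
    (hW : ∀ x ∈ W, θ x ∈ W) (hW' : ∀ x ∈ W', θ x ∈ W') (h : ∀ x ∈ W, θ x ∈ W') :
    LinearMap.trace K W (θ.restrict hW) = LinearMap.trace K W' (θ.restrict hW') := by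
  let ι : W' →ₗ[K] W := Submodule.inclusion hle
  let p : W →ₗ[K] W' := (θ.domRestrict W).codRestrict W' (fun x => h x x.2)
  have h1 : θ.restrict hW = ι ∘ₗ p := by
    ext x
    rfl
  have h2 : θ.restrict hW' = p ∘ₗ ι := by
    ext x
    rfl
  rw [h1, h2]
  exact (LinearMap.trace_comp_comm' ι p).symm

theorem pow_mem_of_stable (θ : Module.End K V) {W : Submodule K V} (hW : ∀ x ∈ W, θ x ∈ W)
    (k : ℕ) : ∀ x ∈ W, (θ ^ k) x ∈ W := by
  induction k with
  | zero => intro x hx; simpa using hx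
  | succ k ih =>
    intro x hx
    rw [pow_succ', Module.End.mul_apply]
    exact hW _ (ih x hx)

theorem trace_restrict_eq_of_pow_map_le (θ : Module.End K V) {W' : Submodule K V}
    [FiniteDimensional K W'] (hW' : ∀ x ∈ W', θ x ∈ W') (k : ℕ) :
    ∀ (W : Submodule K V) [FiniteDimensional K W] (_ : W' ≤ W) (hW : ∀ x ∈ W, θ x ∈ W)
      (_ : ∀ x ∈ W, (θ ^ k) x ∈ W'),
    LinearMap.trace K W (θ.restrict hW) = LinearMap.trace K W' (θ.restrict hW') := by
  induction k with
  | zero =>
    intro W _ hle hW h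
    have hWW : W = W' := le_antisymm (fun x hx => by simpa using h x hx) hle
    subst hWW
    rfl
  | succ k ih =>
    intro W _ hle hW h
    have hmapW : W.map θ ≤ W := by
      rintro _ ⟨x, hx, rfl⟩
      exact hW x hx
    set W₁ : Submodule K V := W' ⊔ W.map θ with hW₁
    have hW₁le : W₁ ≤ W := sup_le hle hmapW
    have : FiniteDimensional K W₁ := Submodule.finiteDimensional_of_le hW₁le
    have hW₁st : ∀ x ∈ W₁, θ x ∈ W₁ := by
      intro x hx
      obtain ⟨a, ha, b, hb, rfl⟩ := Submodule.mem_sup.mp hx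
      rw [map_add]
      refine Submodule.add_mem _ (Submodule.mem_sup_left (hW' a ha)) (Submodule.mem_sup_right ?_)
      exact Submodule.mem_map_of_mem (hmapW hb)
    have hstep : ∀ x ∈ W, θ x ∈ W₁ := fun x hx =>
      Submodule.mem_sup_right (Submodule.mem_map_of_mem hx)
    have hk : ∀ x ∈ W₁, (θ ^ k) x ∈ W' := by
      intro x hx
      obtain ⟨a, ha, b, hb, rfl⟩ := Submodule.mem_sup.mp hx
      rw [map_add]
      refine Submodule.add_mem _ (pow_mem_of_stable θ hW' k a ha) ?_
      obtain ⟨c, hc, rfl⟩ := hb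
      have := h c hc
      rwa [pow_succ, Module.End.mul_apply] at this
    rw [trace_restrict_eq_of_map_le θ hW₁le hW hW₁st hstep]
    exact ih W₁ (le_sup_left) hW₁st hk

theorem fpTr_eq_trace_restrict (θ : Module.End K V) (W : Submodule K V) [FiniteDimensional K W]
    (hW : ∀ x ∈ W, θ x ∈ W) (n : ℕ) (hn : LinearMap.range (θ ^ n) ≤ W) :
    fpTr θ = LinearMap.trace K W (θ.restrict hW) := by
  have hfp : FinPot θ := ⟨n, Submodule.finiteDimensional_of_le hn⟩
  rw [fpTr, dif_pos hfp]
  have : FiniteDimensional K (LinearMap.range (θ ^ hfp.choose)) := hfp.choose_spec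
  set W₀ := LinearMap.range (θ ^ hfp.choose) with hW₀
  have hW₀st := range_pow_stable θ hfp.choose
  set U : Submodule K V := W₀ ⊔ W with hU
  have : FiniteDimensional K U := by
    rw [hU]; infer_instance
  have hUst : ∀ x ∈ U, θ x ∈ U := by
    intro x hx
    obtain ⟨a, ha, b, hb, rfl⟩ := Submodule.mem_sup.mp hx
    rw [map_add]
    exact Submodule.add_mem _ (Submodule.mem_sup_left (hW₀st a ha))
      (Submodule.mem_sup_right (hW b hb))
  have e1 := trace_restrict_eq_of_pow_map_le θ hW₀st hfp.choose U le_sup_left hUst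
    (fun x _ => LinearMap.mem_range_self _ x)
  have e2 := trace_restrict_eq_of_pow_map_le θ hW n U le_sup_right hUst
    (fun x _ => hn (LinearMap.mem_range_self _ x))
  rw [← e1, e2]

theorem fpTr_of_not_finPot {θ : Module.End K V} (h : ¬ FinPot θ) : fpTr θ = 0 := by
  unfold fpTr
  exact dif_neg h

theorem finPot_of_range_pow_le (θ : Module.End K V) (W : Submodule K V) [FiniteDimensional K W]
    (n : ℕ) (hn : LinearMap.range (θ ^ n) ≤ W) : FinPot θ :=
  ⟨n, Submodule.finiteDimensional_of_le hn⟩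

/-- A nilpotent endomorphism has trace zero. -/
theorem fpTr_eq_zero_of_pow_eq_zero (θ : Module.End K V) (n : ℕ) (h : θ ^ n = 0) : fpTr θ = 0 := by
  have hst : ∀ x ∈ (⊥ : Submodule K V), θ x ∈ (⊥ : Submodule K V) := by
    intro x hx
    rw [Submodule.mem_bot] at hx ⊢
    rw [hx, map_zero]
  rw [fpTr_eq_trace_restrict θ ⊥ hst n (by rw [h, LinearMap.range_zero])]
  have : θ.restrict hst = 0 := Subsingleton.elim _ _
  rw [this, map_zero]

theorem fpTr_zero : fpTr (0 : Module.End K V) = 0 :=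
  fpTr_eq_zero_of_pow_eq_zero 0 1 (pow_one 0)

theorem finPot_smul {c : K} (hc : c ≠ 0) (θ : Module.End K V) : FinPot (c • θ) ↔ FinPot θ := by
  have key : ∀ n : ℕ, LinearMap.range ((c • θ) ^ n) = LinearMap.range (θ ^ n) := by
    intro n
    rw [smul_pow]
    exact LinearMap.range_smul _ _ (pow_ne_zero n hc)
  constructor
  · rintro ⟨n, hn⟩
    exact ⟨n, by rwa [key n] at hn⟩
  · rintro ⟨n, hn⟩
    exact ⟨n, by rwa [key n]⟩

theorem fpTr_smul (c : K) (θ : Module.End K V) : fpTr (c • θ) = c * fpTr θ := by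
  rcases eq_or_ne c 0 with rfl | hc
  · rw [zero_smul, fpTr_zero, zero_mul]
  by_cases h : FinPot θ
  · obtain ⟨n, hn⟩ := h
    have hst := range_pow_stable θ n
    have hst' : ∀ x ∈ LinearMap.range (θ ^ n), (c • θ) x ∈ LinearMap.range (θ ^ n) :=
      fun x hx => Submodule.smul_mem _ c (hst x hx)
    rw [fpTr_eq_trace_restrict θ _ hst n le_rfl,
      fpTr_eq_trace_restrict (c • θ) _ hst' n (by
        rw [smul_pow, LinearMap.range_smul _ _ (pow_ne_zero n hc)])]
    have : (c • θ).restrict hst' = c • θ.restrict hst := by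
      ext x
      rfl
    rw [this, map_smul, smul_eq_mul]
  · have h' : ¬ FinPot (c • θ) := fun hh => h ((finPot_smul hc θ).mp hh)
    rw [fpTr_of_not_finPot h, fpTr_of_not_finPot h', mul_zero]

theorem fpTr_neg (θ : Module.End K V) : fpTr (-θ) = -fpTr θ := by
  have := fpTr_smul (-1 : K) θ
  simpa using this

/-- Additivity on a common finite-dimensional stable subspace. -/
theorem fpTr_add_of_stable (θ φ : Module.End K V) (W : Submodule K V) [FiniteDimensional K W]
    (hθ : ∀ x ∈ W, θ x ∈ W) (hφ : ∀ x ∈ W, φ x ∈ W) (n : ℕ)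
    (hθn : LinearMap.range (θ ^ n) ≤ W) (hφn : LinearMap.range (φ ^ n) ≤ W)
    (hn : LinearMap.range ((θ + φ) ^ n) ≤ W) :
    fpTr (θ + φ) = fpTr θ + fpTr φ := by
  have hst : ∀ x ∈ W, (θ + φ) x ∈ W := fun x hx => Submodule.add_mem _ (hθ x hx) (hφ x hx)
  rw [fpTr_eq_trace_restrict θ W hθ n hθn, fpTr_eq_trace_restrict φ W hφ n hφn,
    fpTr_eq_trace_restrict (θ + φ) W hst n hn, ← map_add]
  congr 1

theorem comp_pow_succ (φ : V' →ₗ[K] V) (ψ : V →ₗ[K] V') (n : ℕ) :
    ((ψ ∘ₗ φ : Module.End K V') ^ (n + 1)) = ψ ∘ₗ ((φ ∘ₗ ψ : Module.End K V) ^ n) ∘ₗ φ := by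
  induction n with
  | zero =>
    ext x
    simp
  | succ n ih =>
    rw [pow_succ, ih]
    ext x
    simp only [Module.End.mul_apply, LinearMap.comp_apply]
    rw [pow_succ, Module.End.mul_apply]
    rfl

/-- `Tr (φ ψ) = Tr (ψ φ)`. -/
theorem fpTr_comp_comm (φ : V' →ₗ[K] V) (ψ : V →ₗ[K] V')
    (h : FinPot (φ ∘ₗ ψ : Module.End K V)) :
    fpTr (φ ∘ₗ ψ : Module.End K V) = fpTr (ψ ∘ₗ φ : Module.End K V') := by
  obtain ⟨n, hn⟩ := h
  set W : Submodule K V := LinearMap.range ((φ ∘ₗ ψ : Module.End K V) ^ n) with hWdef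
  have hWst : ∀ x ∈ W, (φ ∘ₗ ψ : Module.End K V) x ∈ W := range_pow_stable _ n
  set W' : Submodule K V' := W.map ψ with hW'def
  have : FiniteDimensional K W' := by rw [hW'def]; infer_instance
  have hW'st : ∀ x ∈ W', (ψ ∘ₗ φ : Module.End K V') x ∈ W' := by
    rintro _ ⟨w, hw, rfl⟩
    exact ⟨_, hWst w hw, rfl⟩
  have hn' : LinearMap.range ((ψ ∘ₗ φ : Module.End K V') ^ (n + 1)) ≤ W' := by
    rintro _ ⟨x, rfl⟩
    rw [comp_pow_succ]
    exact ⟨_, LinearMap.mem_range_self _ (φ x), rfl⟩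
  rw [fpTr_eq_trace_restrict _ W hWst n le_rfl, fpTr_eq_trace_restrict _ W' hW'st (n + 1) hn']
  let a : W →ₗ[K] W' := (ψ.domRestrict W).codRestrict W' (fun x => ⟨x, x.2, rfl⟩)
  let b : W' →ₗ[K] W := (φ.domRestrict W').codRestrict W (fun x => by
    obtain ⟨w, hw, hx⟩ := x.2
    show φ (x : V') ∈ W
    rw [← hx]
    exact hWst w hw)
  have h1 : (φ ∘ₗ ψ : Module.End K V).restrict hWst = b ∘ₗ a := by
    ext x
    rfl
  have h2 : (ψ ∘ₗ φ : Module.End K V').restrict hW'st = a ∘ₗ b := by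
    ext x
    rfl
  rw [h1, h2]
  exact LinearMap.trace_comp_comm' a b

end Fermat.Agent.Lib.RR.H80
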