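import Fermat.Agent.Lib.RR.H80.Res.Symbol2

/-!
# Tate's residue symbol, abstract part 4: localisation at an idempotent

If `e` is an idempotent preserving `A` and `f = e f`, the symbol `tsym p f g` with respect to `A`
can be computed with respect to the corner `e A` (projector `e p e`).
-/

set_option autoImplicit false

noncomputable section

namespace Fermat.Agent.Lib.RR.H80

open LinearMap Module

variable {K V : Type*} [Field K] [AddCommGroup V] [Module K V]
variable {A : Submodule K V}

theorem isProj_block {p e : Module.End K V} (hp : LinearMap.IsProj A p) (he : e * e = e)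
    (heA : A.map e ≤ A) :
    LinearMap.IsProj A (e * p * e + (1 - e) * p * (1 - e)) := by
  have heA' : ∀ a ∈ A, e a ∈ A := fun a ha => heA (Submodule.mem_map_of_mem ha)
  have he' : ∀ x, e (e x) = e x := fun x => by
    rw [← Module.End.mul_apply, he]
  constructor
  · intro x
    simp only [LinearMap.add_apply, Module.End.mul_apply, LinearMap.sub_apply,
      Module.End.one_apply]
    refine A.add_mem (heA' _ (hp.map_mem _)) ?_
    exact A.sub_mem (hp.map_mem _) (heA' _ (hp.map_mem _))
  · intro x hx
    simp only [LinearMap.add_apply, Module.End.mul_apply, LinearMap.sub_apply,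
      Module.End.one_apply]
    rw [hp.map_id _ (heA' x hx), he', hp.map_id _ (A.sub_mem hx (heA' x hx)), map_sub, he']
    abel

theorem isProj_corner {p e : Module.End K V} (hp : LinearMap.IsProj A p) (he : e * e = e)
    (heA : A.map e ≤ A) :
    LinearMap.IsProj (A.map e) (e * p * e) := by
  have heA' : ∀ a ∈ A, e a ∈ A := fun a ha => heA (Submodule.mem_map_of_mem ha)
  have he' : ∀ x, e (e x) = e x := fun x => by
    rw [← Module.End.mul_apply, he]
  constructor
  · intro x
    simp only [Module.End.mul_apply]
    exact Submodule.mem_map_of_mem (hp.map_mem _)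
  · rintro _ ⟨a, ha, rfl⟩
    simp only [Module.End.mul_apply]
    rw [he', hp.map_id _ (heA' a ha), he']

theorem tsym_corner {p e f g : Module.End K V} (hp : LinearMap.IsProj A p) (he : e * e = e)
    (heA : A.map e ≤ A) (hf : EE A f) (hg : EE A g) (hc : f * g = g * f) (hef : e * f = f) :
    tsym p f g = tsym (e * p * e) f g := by
  rw [tsym_congr hp (isProj_block hp he heA) (AlmostLE.refl A) (AlmostLE.refl A) hf hg hc]
  have key : (e * p * e + (1 - e) * p * (1 - e)) * f = e * p * e * f := by
    have h0 : (1 - e) * f = 0 := by
      rw [sub_mul, one_mul, hef, sub_self]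
    rw [add_mul, mul_assoc ((1 - e) * p), h0, mul_zero, add_zero]
  unfold tsym
  rw [key]

/-- The symbol vanishes if `f = e f` for an idempotent `e` preserving `A`, and `f`, `g` preserve
the corner `e A`. -/
theorem tsym_eq_zero_of_corner {p e f g : Module.End K V} (hp : LinearMap.IsProj A p)
    (he : e * e = e) (heA : A.map e ≤ A) (hf : EE A f) (hg : EE A g) (hc : f * g = g * f)
    (hef : e * f = f) (hfA : (A.map e).map f ≤ A.map e) (hgA : (A.map e).map g ≤ A.map e) :
    tsym p f g = 0 := by
  rw [tsym_corner hp he heA hf hg hc hef]
  exact tsym_eq_zero_of_map_le (isProj_corner hp he heA) hfA hgA hc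

end Fermat.Agent.Lib.RR.H80
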