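import Fermat.Agent.Lib.RR.Duality
import Fermat.Agent.Lib.RR.H980.Adele
import Fermat.Agent.Lib.RR.H80.Res.Idem

/-!
# Tate's residue symbol on the adeles of a function field

`V = 𝔸 = repartitions K F`, `A = 𝔸(0)`.  For `t : F` the functional
`rho t : α ↦ tsym P (α·) (t·)` is a Weil differential ("`α ↦ Σ_v res_v(α_v dt)`"):
it vanishes on `F` (`rho_diag`), is a derivation in `t` (`rho_mul`), vanishes on locally
integral pairs (`rho_eq_zero_of_integral`) and is `1` on `π⁻¹` at a place with uniformizer `π`
(`rho_unif`).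
-/

set_option autoImplicit false

noncomputable section

open AlgebraicCurve

namespace Fermat.Agent.Lib.RR.H80

open Fermat.Agent.Lib.RR LinearMap Module

variable {K F : Type*} [Field K] [Field F] [Algebra K F]

/-! ### Multiplication by an adele -/

/-- Multiplication by an adele, as a `K`-linear endomorphism of `𝔸`. -/
def mulAd (α : ↥(repartitions K F)) : Module.End K ↥(repartitions K F) where
  toFun γ := α * γ
  map_add' := mul_add α
  map_smul' c γ := by
    apply Subtype.ext
    funext v
    show (α : Place K F → F) v * (c • (γ : Place K F → F) v) =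
      c • ((α : Place K F → F) v * (γ : Place K F → F) v)
    rw [mul_smul_comm]

@[simp] theorem mulAd_apply (α γ : ↥(repartitions K F)) : mulAd α γ = α * γ := rfl

theorem coe_mul_apply (α γ : ↥(repartitions K F)) (v : Place K F) :
    ((α * γ : ↥(repartitions K F)) : Place K F → F) v =
      (α : Place K F → F) v * (γ : Place K F → F) v := rfl

theorem mulAd_mul (α β : ↥(repartitions K F)) : mulAd (α * β) = mulAd α * mulAd β := by
  ext γ : 1
  simp only [mulAd_apply, Module.End.mul_apply, mul_assoc]

theorem mulAd_comm (α β : ↥(repartitions K F)) : mulAd α * mulAd β = mulAd β * mulAd α := by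
  rw [← mulAd_mul, ← mulAd_mul, mul_comm]

theorem mulAd_add (α β : ↥(repartitions K F)) : mulAd (α + β) = mulAd α + mulAd β := by
  ext γ : 1
  simp only [mulAd_apply, LinearMap.add_apply, add_mul]

theorem mulAd_smul (c : K) (α : ↥(repartitions K F)) : mulAd (c • α) = c • mulAd α := by
  ext γ : 1
  apply Subtype.ext
  funext v
  show (c • (α : Place K F → F) v) * (γ : Place K F → F) v =
    c • ((α : Place K F → F) v * (γ : Place K F → F) v)
  rw [smul_mul_assoc]

theorem mulAd_one : mulAd (1 : ↥(repartitions K F)) = 1 := by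
  ext γ : 1
  simp only [mulAd_apply, one_mul, Module.End.one_apply]

theorem mulAd_diag (x : F) : mulAd (H980.diag (K := K) x) = mulA x := by
  ext γ : 1
  apply Subtype.ext
  funext v
  show ((H980.diag x : ↥(repartitions K F)) : Place K F → F) v * (γ : Place K F → F) v = _
  rw [H980.diag_apply]
  rfl

theorem diag_mul (x y : F) : H980.diag (K := K) (x * y) = H980.diag x * H980.diag y := by
  apply Subtype.ext
  funext v
  rw [coe_mul_apply, H980.diag_apply, H980.diag_apply, H980.diag_apply]

theorem diag_one : H980.diag (K := K) (1 : F) = 1 := by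
  apply Subtype.ext
  funext v
  rw [H980.diag_apply]
  rfl

theorem diag_mul_eq_smul (x : F) (α : ↥(repartitions K F)) :
    H980.diag (K := K) x * α = x • α := by
  apply Subtype.ext
  funext v
  rw [coe_mul_apply, H980.diag_apply]
  rfl

/-! ### The integral adeles -/

theorem mem_A0_iff {α : ↥(repartitions K F)} :
    α ∈ repartitionsOf (0 : Divisor K F) ↔ ∀ v : Place K F, 0 ≤ v.ord ((α : Place K F → F) v) := by
  rw [mem_repartitionsOf_iff]
  refine forall_congr' fun v => ?_
  simp only [Finsupp.coe_zero, Pi.zero_apply, neg_zero]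
  constructor
  · rintro (h | h)
    · rw [h, Place.ord_zero]
    · exact h
  · exact fun h => Or.inr h

/-- The indicator adele of a set of places. -/
def indA (T : Set (Place K F)) : ↥(repartitions K F) :=
  ⟨fun v => by classical exact if v ∈ T then 1 else 0,
    mem_repartitions_of_finite_ord <| Set.finite_empty.subset fun v hv => by
      classical
      have hv : v.ord (if v ∈ T then (1 : F) else 0) < 0 := hv
      split_ifs at hv
      · rw [Place.ord_one] at hv
        exact absurd hv (lt_irrefl _)
      · rw [Place.ord_zero] at hv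
        exact absurd hv (lt_irrefl _)⟩

theorem indA_apply_of_mem {T : Set (Place K F)} {v : Place K F} (h : v ∈ T) :
    ((indA T : ↥(repartitions K F)) : Place K F → F) v = 1 := by
  classical
  simp [indA, h]

theorem indA_apply_of_not_mem {T : Set (Place K F)} {v : Place K F} (h : v ∉ T) :
    ((indA T : ↥(repartitions K F)) : Place K F → F) v = 0 := by
  classical
  simp [indA, h]

theorem indA_mul_self (T : Set (Place K F)) : indA T * indA T = indA T := by
  apply Subtype.ext
  funext v
  rw [coe_mul_apply]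
  by_cases h : v ∈ T
  · rw [indA_apply_of_mem h, one_mul]
  · rw [indA_apply_of_not_mem h, zero_mul]

theorem ord_indA_nonneg (T : Set (Place K F)) (v : Place K F) :
    0 ≤ v.ord (((indA T : ↥(repartitions K F)) : Place K F → F) v) := by
  by_cases h : v ∈ T
  · rw [indA_apply_of_mem h, Place.ord_one]
  · rw [indA_apply_of_not_mem h, Place.ord_zero]

theorem indA_mul_mem_A0 (T : Set (Place K F)) {γ : ↥(repartitions K F)}
    (hγ : γ ∈ repartitionsOf (0 : Divisor K F)) :
    indA T * γ ∈ repartitionsOf (0 : Divisor K F) := by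
  rw [mem_A0_iff] at hγ ⊢
  intro v
  rw [coe_mul_apply]
  exact H742.ord_mul_nonneg v (ord_indA_nonneg T v) (hγ v)

theorem mulAd_indA_idem (T : Set (Place K F)) :
    mulAd (indA T) * mulAd (indA T) = mulAd (indA T) := by
  rw [← mulAd_mul, indA_mul_self]

theorem map_mulAd_indA_le (T : Set (Place K F)) :
    (repartitionsOf (0 : Divisor K F)).map (mulAd (indA T)) ≤ repartitionsOf 0 := by
  rintro _ ⟨γ, hγ, rfl⟩
  exact indA_mul_mem_A0 T hγ

/-- Membership in the corner `e_T 𝔸(0)`. -/
theorem mem_corner_iff (T : Set (Place K F)) {x : ↥(repartitions K F)} :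
    x ∈ (repartitionsOf (0 : Divisor K F)).map (mulAd (indA T)) ↔
      x ∈ repartitionsOf (0 : Divisor K F) ∧ ∀ v ∉ T, (x : Place K F → F) v = 0 := by
  constructor
  · rintro ⟨γ, hγ, rfl⟩
    refine ⟨indA_mul_mem_A0 T hγ, fun v hv => ?_⟩
    rw [mulAd_apply, coe_mul_apply, indA_apply_of_not_mem hv, zero_mul]
  · rintro ⟨hx, hx0⟩
    refine ⟨x, hx, ?_⟩
    apply Subtype.ext
    funext v
    rw [mulAd_apply, coe_mul_apply]
    by_cases h : v ∈ T
    · rw [indA_apply_of_mem h, one_mul]
    · rw [indA_apply_of_not_mem h, zero_mul, hx0 v h]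

/-! ### Commensurability -/

theorem almostLE_of_finIdx {V : Type*} [AddCommGroup V] [Module K V] {X Y : Submodule K V}
    (h : H980.FinIdx X Y) : AlmostLE Y X := by
  obtain ⟨C, hC⟩ := Submodule.exists_isCompl (X.submoduleOf Y)
  have hfin : Module.Finite K (↥Y ⧸ X.submoduleOf Y) := h
  have hCfin : FiniteDimensional K C :=
    Module.Finite.equiv (Submodule.quotientEquivOfIsCompl _ _ hC)
  refine ⟨C.map Y.subtype, inferInstance, fun y hy => ?_⟩
  have hmem : (⟨y, hy⟩ : ↥Y) ∈ X.submoduleOf Y ⊔ C := by
    rw [hC.sup_eq_top]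
    exact Submodule.mem_top
  obtain ⟨a, ha, c, hc, hac⟩ := Submodule.mem_sup.mp hmem
  have : y = (a : V) + (c : V) := by
    have := congrArg Subtype.val hac
    simpa using this.symm
  rw [this]
  exact Submodule.add_mem _ (Submodule.mem_sup_left ha)
    (Submodule.mem_sup_right (Submodule.mem_map_of_mem hc))

variable [hFF : FF1 K F]

theorem EE_mulAd (α : ↥(repartitions K F)) :
    EE (repartitionsOf (0 : Divisor K F)) (mulAd α) := by
  obtain ⟨E, hE⟩ := H742.exists_mem_repartitionsOf α
  have hE' : α ∈ repartitionsOf (E ⊔ 0) := repartitionsOf_mono le_sup_left hE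
  have h1 : (repartitionsOf (0 : Divisor K F)).map (mulAd α) ≤ repartitionsOf (E ⊔ 0) := by
    rintro _ ⟨γ, hγ, rfl⟩
    intro v
    have h1 := hE' v
    have h2 := hγ v
    show v.adicValuation ((α : Place K F → F) v * (γ : Place K F → F) v) ≤ _
    rw [map_mul]
    calc v.adicValuation ((α : Place K F → F) v) * v.adicValuation ((γ : Place K F → F) v)
        ≤ WithZero.exp ((E ⊔ 0) v) * WithZero.exp ((0 : Divisor K F) v) := mul_le_mul' h1 h2
      _ = WithZero.exp ((E ⊔ 0) v) := by
        rw [Finsupp.coe_zero, Pi.zero_apply, WithZero.exp_zero, mul_one]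
  exact (AlmostLE.of_le h1).trans
    (almostLE_of_finIdx (H980.finIdx_and_idx_repartitionsOf (le_sup_right (a := E))).1)

theorem finiteDimensional_A0_inf_principal :
    FiniteDimensional K ↥(repartitionsOf (0 : Divisor K F) ⊓ principalRepartitions K F) :=
  H980.finite_inf 0

theorem exists_cocompact :
    ∃ C : Submodule K ↥(repartitions K F), FiniteDimensional K C ∧
      repartitionsOf (0 : Divisor K F) ⊔ principalRepartitions K F ⊔ C = ⊤ := by
  obtain ⟨C, hC⟩ := Submodule.exists_isCompl
    (repartitionsOf (0 : Divisor K F) ⊔ principalRepartitions K F)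
  have hfin : Module.Finite K (H1 (0 : Divisor K F)) := finite_H1 0
  exact ⟨C, Module.Finite.equiv (Submodule.quotientEquivOfIsCompl _ _ hC), hC.sup_eq_top⟩

/-! ### The Weil differential attached to `t` -/

variable (K F) in
/-- A fixed projector onto the integral adeles. -/
def projA0 : Module.End K ↥(repartitions K F) :=
  (exists_isProj (repartitionsOf (0 : Divisor K F))).choose

omit hFF in
theorem isProj_projA0 : LinearMap.IsProj (repartitionsOf (0 : Divisor K F)) (projA0 K F) :=
  (exists_isProj (repartitionsOf (0 : Divisor K F))).choose_spec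

/-- The Weil differential "`α ↦ Σ_v res_v (α_v dt)`". -/
def rho (t : F) : Module.Dual K ↥(repartitions K F) where
  toFun α := tsym (projA0 K F) (mulAd α) (mulAd (H980.diag t))
  map_add' α β := by
    rw [mulAd_add]
    exact tsym_add_left isProj_projA0 (EE_mulAd α) (EE_mulAd β) (EE_mulAd _)
      (mulAd_comm _ _) (mulAd_comm _ _)
  map_smul' c α := by
    rw [mulAd_smul]
    exact tsym_smul_left _ _ _ c

theorem rho_apply (t : F) (α : ↥(repartitions K F)) :
    rho t α = tsym (projA0 K F) (mulAd α) (mulAd (H980.diag t)) := rfl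

theorem rho_add (t s : F) : rho (K := K) (t + s) = rho t + rho s := by
  ext α
  rw [LinearMap.add_apply, rho_apply, rho_apply, rho_apply, map_add, mulAd_add]
  exact tsym_add_right isProj_projA0 (EE_mulAd α) (EE_mulAd _) (EE_mulAd _)
    (mulAd_comm _ _) (mulAd_comm _ _)

theorem rho_smul (c : K) (t : F) : rho (K := K) (c • t) = c • rho t := by
  ext α
  rw [LinearMap.smul_apply, rho_apply, rho_apply, map_smul, mulAd_smul]
  exact tsym_smul_right _ _ _ c

theorem rho_one : rho (K := K) (1 : F) = 0 := by
  ext α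
  rw [rho_apply, diag_one, mulAd_one, LinearMap.zero_apply]
  unfold tsym
  rw [mul_one, one_mul]
  have h0 : projA0 K F * mulAd α - projA0 K F * mulAd α = 0 := by
    ext x : 1
    simp only [LinearMap.sub_apply, sub_self, LinearMap.zero_apply]
  rw [h0, fpTr_zero]

theorem rho_mul (t s : F) (α : ↥(repartitions K F)) :
    rho (t * s) α = rho t (s • α) + rho s (t • α) := by
  rw [rho_apply, rho_apply, rho_apply, diag_mul, mulAd_mul,
    tsym_leibniz isProj_projA0 (EE_mulAd α) (EE_mulAd _) (EE_mulAd _)
      (mulAd_comm _ _) (mulAd_comm _ _) (mulAd_comm _ _),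
    ← mulAd_mul, ← mulAd_mul, mul_comm α, mul_comm α, diag_mul_eq_smul, diag_mul_eq_smul,
    add_comm]

/-- The residue theorem: `rho t` vanishes on principal adeles. -/
theorem rho_diag (t x : F) : rho (K := K) t (H980.diag x) = 0 := by
  rw [rho_apply]
  obtain ⟨C, hC, hsup⟩ := exists_cocompact (K := K) (F := F)
  have hB : ∀ y : F, (principalRepartitions K F).map (mulAd (H980.diag (K := K) y)) ≤
      principalRepartitions K F := by
    intro y
    rintro _ ⟨γ, hγ, rfl⟩
    rw [← H980.range_diag] at hγ ⊢
    obtain ⟨z, rfl⟩ := hγ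
    exact ⟨y * z, by rw [mulAd_apply, diag_mul]⟩
  exact tsym_eq_zero_of_cocompact isProj_projA0 (EE_mulAd _) (EE_mulAd _) (mulAd_comm _ _)
    (hB x) (hB t) finiteDimensional_A0_inf_principal ⟨C, hC, hsup⟩

theorem rho_principal (t : F) {α : ↥(repartitions K F)} (hα : α ∈ principalRepartitions K F) :
    rho t α = 0 := by
  rw [← H980.range_diag] at hα
  obtain ⟨x, rfl⟩ := hα
  exact rho_diag t x

/-! ### Local vanishing and the residue of `π⁻¹ dπ` -/

/-- `rho t β = 0` if at each place either `β_v = 0` or both `β_v` and `t` are integral. -/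
theorem rho_eq_zero_of_integral (t : F) (β : ↥(repartitions K F))
    (h : ∀ v : Place K F, (β : Place K F → F) v = 0 ∨
      (0 ≤ v.ord ((β : Place K F → F) v) ∧ 0 ≤ v.ord t)) :
    rho t β = 0 := by
  rw [rho_apply]
  set T : Set (Place K F) := {v | (β : Place K F → F) v ≠ 0} with hT
  have hef : mulAd (indA T) * mulAd β = mulAd β := by
    rw [← mulAd_mul]
    congr 1
    apply Subtype.ext
    funext v
    rw [coe_mul_apply]
    by_cases hv : v ∈ T
    · rw [indA_apply_of_mem hv, one_mul]
    · rw [indA_apply_of_not_mem hv, zero_mul]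
      have : (β : Place K F → F) v = 0 := by
        by_contra h0
        exact hv h0
      rw [this]
  refine tsym_eq_zero_of_corner isProj_projA0 (mulAd_indA_idem T) (map_mulAd_indA_le T)
    (EE_mulAd _) (EE_mulAd _) (mulAd_comm _ _) hef ?_ ?_
  · rintro _ ⟨x, hx, rfl⟩
    rw [SetLike.mem_coe, mem_corner_iff] at hx
    rw [mem_corner_iff]
    obtain ⟨hxA, hx0⟩ := hx
    refine ⟨?_, fun v hv => ?_⟩
    · rw [mem_A0_iff] at hxA ⊢
      intro v
      rw [mulAd_apply, coe_mul_apply]
      rcases h v with h0 | ⟨h1, -⟩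
      · rw [h0, zero_mul, Place.ord_zero]
      · exact H742.ord_mul_nonneg v h1 (hxA v)
    · rw [mulAd_apply, coe_mul_apply, hx0 v hv, mul_zero]
  · rintro _ ⟨x, hx, rfl⟩
    rw [SetLike.mem_coe, mem_corner_iff] at hx
    rw [mem_corner_iff]
    obtain ⟨hxA, hx0⟩ := hx
    refine ⟨?_, fun v hv => ?_⟩
    · rw [mem_A0_iff] at hxA ⊢
      intro v
      rw [mulAd_apply, coe_mul_apply, H980.diag_apply]
      by_cases hv : v ∈ T
      · rcases h v with h0 | ⟨-, h2⟩
        · exact absurd h0 hv
        · exact H742.ord_mul_nonneg v h2 (hxA v)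
      · rw [hx0 v hv, mul_zero, Place.ord_zero]
    · rw [mulAd_apply, coe_mul_apply, hx0 v hv, mul_zero]

omit hFF in
theorem singleA_eq_indA_mul (v : Place K F) (a : F) :
    singleA v a = indA ({v} : Set (Place K F)) * H980.diag a := by
  apply Subtype.ext
  funext w
  rw [coe_mul_apply, H980.diag_apply]
  by_cases hw : w = v
  · subst hw
    rw [singleA_apply_self, indA_apply_of_mem (Set.mem_singleton _), one_mul]
  · rw [singleA_apply_of_ne _ _ hw, indA_apply_of_not_mem (by simpa using hw), zero_mul]

omit hFF in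
theorem smul_singleA (v : Place K F) (c a : F) : c • singleA v a = singleA v (c * a) := by
  apply Subtype.ext
  funext w
  rw [coe_smul_apply]
  by_cases hw : w = v
  · subst hw
    rw [singleA_apply_self, singleA_apply_self]
  · rw [singleA_apply_of_ne _ _ hw, singleA_apply_of_ne _ _ hw, mul_zero]

/-- `rho t` kills `single_v a` when `a` and `t` are integral at `v`. -/
theorem rho_singleA_eq_zero (v : Place K F) {t a : F} (ht : 0 ≤ v.ord t) (ha : 0 ≤ v.ord a) :
    rho t (singleA v a) = 0 := by
  refine rho_eq_zero_of_integral t _ fun w => ?_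
  by_cases hw : w = v
  · subst hw
    right
    rw [singleA_apply_self]
    exact ⟨ha, ht⟩
  · left
    exact singleA_apply_of_ne _ _ hw

/-- The residue of `π⁻¹ dπ` at a place where `π` is a uniformizer is `1`. -/
theorem rho_unif (v : Place K F) {π : F} (hπ : v.ord π = 1) :
    rho π (singleA v π⁻¹) = 1 := by
  rw [rho_apply]
  have hπ0 : π ≠ 0 := ne_zero_of_ord_ne_zero v (by rw [hπ]; exact one_ne_zero)
  have hidem := mulAd_indA_idem ({v} : Set (Place K F))
  have hmap := map_mulAd_indA_le ({v} : Set (Place K F))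
  have hef : mulAd (indA ({v} : Set (Place K F))) * mulAd (singleA v π⁻¹) =
      mulAd (singleA v π⁻¹) := by
    rw [singleA_eq_indA_mul, ← mulAd_mul, ← mul_assoc, indA_mul_self]
  rw [tsym_corner isProj_projA0 hidem hmap (EE_mulAd _) (EE_mulAd _) (mulAd_comm _ _) hef,
    singleA_eq_indA_mul, mulAd_mul]
  have hfix : ∀ x ∈ (repartitionsOf (0 : Divisor K F)).map (mulAd (indA ({v} : Set (Place K F)))),
      mulAd (indA ({v} : Set (Place K F))) x = x := by
    rintro _ ⟨γ, -, rfl⟩
    rw [← Module.End.mul_apply, hidem]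
  refine tsym_unif (isProj_corner isProj_projA0 hidem hmap) (g := mulAd (H980.diag π))
    ?_ (mulAd_comm _ _) ?_ ?_ 1 ?_ (indA {v}) ?_ ?_ ?_
  · rw [← mulAd_mul, ← diag_mul, inv_mul_cancel₀ hπ0, diag_one, mulAd_one]
  · rintro _ ⟨x, hx, rfl⟩
    rw [SetLike.mem_coe, mem_corner_iff] at hx
    rw [mem_corner_iff]
    obtain ⟨hxA, hx0⟩ := hx
    refine ⟨?_, fun w hw => ?_⟩
    · rw [mem_A0_iff] at hxA ⊢
      intro w
      rw [mulAd_apply, coe_mul_apply, H980.diag_apply]
      by_cases hw : w ∈ ({v} : Set (Place K F))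
      · rw [Set.mem_singleton_iff] at hw
        subst hw
        exact H742.ord_mul_nonneg w (by rw [hπ]; exact zero_le_one) (hxA w)
      · rw [hx0 w hw, mul_zero, Place.ord_zero]
    · rw [mulAd_apply, coe_mul_apply, hx0 w hw, mul_zero]
  · rintro _ ⟨x, hx, rfl⟩
    rw [hfix x hx]
    exact hx
  · intro a ha
    rw [hfix a ha, one_smul, sub_self]
    exact Submodule.zero_mem _
  · rw [mem_corner_iff]
    refine ⟨mem_A0_iff.mpr (ord_indA_nonneg _), fun w hw => indA_apply_of_not_mem hw⟩
  · rintro ⟨x, hx, hxeq⟩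
    rw [SetLike.mem_coe, mem_corner_iff] at hx
    have hxA := mem_A0_iff.mp hx.1 v
    have h1 : π * (x : Place K F → F) v = 1 := by
      have := congrArg (fun z : ↥(repartitions K F) => (z : Place K F → F) v) hxeq
      simp only [mulAd_apply, coe_mul_apply, H980.diag_apply] at this
      rw [this, indA_apply_of_mem (Set.mem_singleton v)]
    have hx0 : (x : Place K F → F) v ≠ 0 := by
      intro h0
      rw [h0, mul_zero] at h1
      exact zero_ne_one h1
    have h2 := v.ord_mul hπ0 hx0
    rw [h1, Place.ord_one, hπ] at h2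
    omega
  · intro a ha
    rw [mem_corner_iff] at ha
    obtain ⟨haA, ha0⟩ := ha
    obtain ⟨k, hk⟩ := exists_const_sub v (FF1.deg_eq_one v) (mem_A0_iff.mp haA v)
    refine ⟨k, ?_⟩
    set b : F := π⁻¹ * ((a : Place K F → F) v - algebraMap K F k) with hb
    have hb0 : 0 ≤ v.ord b := by
      rcases hk with hk | hk
      · rw [hb, hk, mul_zero, Place.ord_zero]
      · have hne : (a : Place K F → F) v - algebraMap K F k ≠ 0 := by
          intro h0
          rw [h0, Place.ord_zero] at hk
          exact lt_irrefl _ hk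
        rw [hb, v.ord_mul (inv_ne_zero hπ0) hne, Place.ord_inv, hπ]
        omega
    refine ⟨singleA v b, ?_, ?_⟩
    · rw [SetLike.mem_coe, mem_corner_iff]
      refine ⟨mem_A0_iff.mpr fun w => ?_, fun w hw => singleA_apply_of_ne _ _ (by simpa using hw)⟩
      by_cases hw : w = v
      · subst hw
        rw [singleA_apply_self]
        exact hb0
      · rw [singleA_apply_of_ne _ _ hw, Place.ord_zero]
    · apply Subtype.ext
      funext w
      rw [mulAd_apply, coe_mul_apply, H980.diag_apply]
      show _ = (a : Place K F → F) w - ((k • indA ({v} : Set (Place K F)) : ↥(repartitions K F)) :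
        Place K F → F) w
      rw [H980.val_apply_smul]
      by_cases hw : w = v
      · subst hw
        rw [singleA_apply_self, indA_apply_of_mem (Set.mem_singleton _), mul_one, hb,
          ← mul_assoc, mul_inv_cancel₀ hπ0, one_mul]
      · rw [singleA_apply_of_ne _ _ hw, indA_apply_of_not_mem (by simpa using hw), mul_zero,
          mul_zero, sub_zero, ha0 w (by simpa using hw)]

end Fermat.Agent.Lib.RR.H80
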