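import Fermat.Agent.Lib.RR.H80.Res.Bridge

/-!
# Local behaviour of Kähler differentials at an arbitrary place (via residues)

For a function field `F/K` with `FF1 K F`, a place `v` and a uniformizer `π` at `v`
(no completions, no Laurent expansions):

* `ord_coeff_nonneg` : `f ∈ O_v`, `df = c dπ`  ⟹  `c ∈ O_v`;
* `ord_coeff_sub_pos` : `f = k + π h`, `h ∈ O_v`, `df = c dπ`  ⟹  `c ≡ h mod π`
  (i.e. `(df/dπ)(v) = ((f - f(v))/π)(v)`);
* `ord_coeff_eq` : (char `0`) `ord_v f ≠ 0`, `df = c dπ`  ⟹  `ord_v c = ord_v f - 1`;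
* Prelude forms `ordDifferential_D_nonneg`, `ordDifferential_D_eq`.
-/

set_option autoImplicit false

noncomputable section

open AlgebraicCurve KaehlerDifferential

namespace Fermat.Agent.Lib.RR.H80

open Fermat.Agent.Lib.RR LinearMap Module

variable {K F : Type*} [Field K] [Field F] [Algebra K F] [hFF : FF1 K F]

/-- `dπ ≠ 0` for a uniformizer `π`. -/
theorem D_ne_zero_of_ord_eq_one (v : Place K F) {π : F} (hπ : v.ord π = 1) : D K F π ≠ 0 := by
  intro h0
  have h1 := rho_unif v hπ
  rw [← rhoK_D, h0, map_zero] at h1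
  exact zero_ne_one h1

/-- If `f` is integral at `v` and `df = c dπ` with `π` a uniformizer at `v`, then `c` is integral
at `v`. -/
theorem ord_coeff_nonneg (v : Place K F) {π f c : F} (hπ : v.ord π = 1) (hf : 0 ≤ v.ord f)
    (h : D K F f = c • D K F π) : 0 ≤ v.ord c := by
  by_contra hlt
  rw [not_le] at hlt
  have hπ0 : π ≠ 0 := ne_zero_of_ord_ne_zero v (by rw [hπ]; exact one_ne_zero)
  have hc : c ≠ 0 := ne_zero_of_ord_ne_zero v hlt.ne
  have ha : 0 ≤ v.ord (c * π)⁻¹ := by
    rw [Place.ord_inv, v.ord_mul hc hπ0, hπ]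
    omega
  have h0 : rho f (singleA v (c * π)⁻¹) = 0 := rho_singleA_eq_zero v hf ha
  have h1 := rhoK_singleA_eq_one v hπ hc
  rw [← h, rhoK_D, h0] at h1
  exact zero_ne_one h1

/-- Uniqueness of the coefficient with respect to `dπ`. -/
theorem coeff_unique (v : Place K F) {π c c' : F} (hπ : v.ord π = 1)
    (h : c • D K F π = c' • D K F π) : c = c' := by
  have h0 : (c - c') • D K F π = 0 := by rw [sub_smul, h, sub_self]
  rcases smul_eq_zero.mp h0 with h1 | h1
  · exact sub_eq_zero.mp h1
  · exact absurd h1 (D_ne_zero_of_ord_eq_one v hπ)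

/-- `(df/dπ)(v) = ((f - f(v))/π)(v)`: if `f = k + π h` with `h` integral at `v` and `df = c dπ`,
then `c ≡ h` modulo the maximal ideal at `v`. -/
theorem ord_coeff_sub_pos (v : Place K F) {π f h c : F} (k : K) (hπ : v.ord π = 1)
    (hspan : Submodule.span F {D K F π} = ⊤)
    (hh : 0 ≤ v.ord h) (hf : f = algebraMap K F k + π * h) (hc : D K F f = c • D K F π) :
    c - h = 0 ∨ 0 < v.ord (c - h) := by
  have hπ0 : π ≠ 0 := ne_zero_of_ord_ne_zero v (by rw [hπ]; exact one_ne_zero)
  have hmem : D K F h ∈ Submodule.span F {D K F π} := by rw [hspan]; trivial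
  obtain ⟨c', hc'⟩ := Submodule.mem_span_singleton.1 hmem
  have hc'0 : 0 ≤ v.ord c' := ord_coeff_nonneg v hπ hh hc'.symm
  have e : D K F f = (h + π * c') • D K F π := by
    rw [hf, map_add, Derivation.map_algebraMap, zero_add, Derivation.leibniz, ← hc', smul_smul,
      ← add_smul, add_comm]
  have hcc : c = h + π * c' := coeff_unique v hπ (hc.symm.trans e)
  rw [hcc, add_sub_cancel_left]
  rcases eq_or_ne c' 0 with h0 | h0
  · left
    rw [h0, mul_zero]
  · right
    rw [v.ord_mul hπ0 h0, hπ]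
    omega

/-- In characteristic `0`: if `ord_v f ≠ 0` and `df = c dπ` then `ord_v c = ord_v f - 1`. -/
theorem ord_coeff_eq [CharZero K] (v : Place K F) {π f c : F} (hπ : v.ord π = 1)
    (hspan : Submodule.span F {D K F π} = ⊤)
    (hf : v.ord f ≠ 0) (hc : D K F f = c • D K F π) : v.ord c = v.ord f - 1 := by
  have hπ0 : π ≠ 0 := ne_zero_of_ord_ne_zero v (by rw [hπ]; exact one_ne_zero)
  have hf0 : f ≠ 0 := ne_zero_of_ord_ne_zero v hf
  set n : ℤ := v.ord f with hn
  set u : F := f * π ^ (-n) with hu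
  have hpow : ∀ m : ℤ, π ^ m ≠ 0 := fun m => zpow_ne_zero m hπ0
  have hordpow : ∀ m : ℤ, v.ord (π ^ m) = m := fun m => by
    rw [Place.ord_zpow, hπ, mul_one]
  have hu0 : u ≠ 0 := mul_ne_zero hf0 (hpow _)
  have hordu : v.ord u = 0 := by
    rw [hu, v.ord_mul hf0 (hpow _), hordpow]
    omega
  have hfu : f = π ^ n * u := by
    rw [hu, mul_comm f, ← mul_assoc, ← zpow_add₀ hπ0, add_neg_cancel, zpow_zero, one_mul]
  have hmem : D K F u ∈ Submodule.span F {D K F π} := by rw [hspan]; trivial
  obtain ⟨c', hc'⟩ := Submodule.mem_span_singleton.1 hmem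
  have hc'0 : 0 ≤ v.ord c' := ord_coeff_nonneg v hπ hordu.ge hc'.symm
  have e : D K F f = (π ^ n * c' + u * ((n : F) * π ^ (n - 1))) • D K F π := by
    rw [hfu, Derivation.leibniz, Derivation.leibniz_zpow, ← hc', ← Int.cast_smul_eq_zsmul F n,
      smul_smul, smul_smul, smul_smul, ← add_smul, mul_assoc]
  have hcc : c = π ^ n * c' + u * ((n : F) * π ^ (n - 1)) := coeff_unique v hπ (hc.symm.trans e)
  have hn0 : (n : F) ≠ 0 := by
    have : CharZero F := charZero_of_injective_algebraMap (algebraMap K F).injective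
    exact Int.cast_ne_zero.mpr hf
  have hordn : v.ord (n : F) = 0 := by
    have : (n : F) = algebraMap K F (n : K) := (map_intCast (algebraMap K F) n).symm
    rw [this, ord_algebraMap]
  have h2 : v.ord (u * ((n : F) * π ^ (n - 1))) = n - 1 := by
    rw [v.ord_mul hu0 (mul_ne_zero hn0 (hpow _)), v.ord_mul hn0 (hpow _), hordu, hordn,
      hordpow]
    omega
  have h20 : u * ((n : F) * π ^ (n - 1)) ≠ 0 := mul_ne_zero hu0 (mul_ne_zero hn0 (hpow _))
  rw [hcc]
  rcases eq_or_ne c' 0 with h0 | h0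
  · rw [h0, mul_zero, zero_add, h2]
  · have h1 : v.ord (π ^ n * c') = n + v.ord c' := by
      rw [v.ord_mul (hpow _) h0, hordpow]
    rw [add_comm, ord_add_eq_of_lt v h20 (mul_ne_zero (hpow _) h0) (by rw [h1, h2]; omega), h2]

omit hFF in
/-- A derivation `d` of `F/K` is determined by `d π`: `d f = c · d π` if `df = c dπ`. -/
theorem derivation_eq_mul {π f c : F} (d : Derivation K F F) (h : D K F f = c • D K F π) :
    d f = c * d π := by
  have := congrArg d.liftKaehlerDifferential h
  rwa [map_smul, Derivation.liftKaehlerDifferential_comp_D,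
    Derivation.liftKaehlerDifferential_comp_D, smul_eq_mul] at this

/-! ### Prelude forms -/

variable [IsAlgClosed K] [CharZero K]

/-- every place has a generating coordinate differential -/
theorem dCoordGenerates_of_FF1 (v : Place K F) : v.DCoordGenerates := by
  obtain ⟨j, -, hjfin⟩ := FF1.exists_finite (K := K) (F := F)
  have := hjfin
  exact Fermat.Agent.S24.H84.place_dCoordGenerates j v

/-- `df` has no pole where `f` has none. -/
theorem ordDifferential_D_nonneg (v : Place K F) {f : F} (hf : 0 ≤ v.ord f) :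
    0 ≤ v.ordDifferential (D K F f) := by
  have hgen := dCoordGenerates_of_FF1 v
  obtain ⟨π, hπ, hd⟩ := Fermat.Agent.S24.H84.place_exists_uniformizer v
  have h := v.differentialCoeff_smul_dCoord (D K F f)
  rw [hd] at h
  exact ord_coeff_nonneg v hπ hf h.symm

/-- `ord_v (df) = ord_v f - 1` if `ord_v f ≠ 0`. -/
theorem ordDifferential_D_eq (v : Place K F) {f : F} (hf : v.ord f ≠ 0) :
    v.ordDifferential (D K F f) = v.ord f - 1 := by
  have hgen := dCoordGenerates_of_FF1 v
  obtain ⟨π, hπ, hd⟩ := Fermat.Agent.S24.H84.place_exists_uniformizer v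
  have h := v.differentialCoeff_smul_dCoord (D K F f)
  have hspan := hgen.span_eq_top
  rw [hd] at h hspan
  exact ord_coeff_eq v hπ hspan hf h.symm

/-- `ord_v (d(f - k)) = ord_v (f - k) - 1`, in terms of `df`. -/
theorem ordDifferential_D_eq_sub (v : Place K F) {f : F} (k : K)
    (hf : v.ord (f - algebraMap K F k) ≠ 0) :
    v.ordDifferential (D K F f) = v.ord (f - algebraMap K F k) - 1 := by
  have := ordDifferential_D_eq v hf
  rwa [map_sub, Derivation.map_algebraMap, sub_zero] at this

end Fermat.Agent.Lib.RR.H80
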