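import Fermat.Agent.Lib.RR.H80.Res.Bridge
import Fermat.Agent.Lib.RR.H804.Modular
import Fermat.Agent.S24

/-!
# The adelic genus of `X₀(N)` is given by the classical genus formula

Combines the bridge `genus_eq_genusFF` (Kähler genus = adelic genus `genusFF`), the landed
statement `S24` (Kähler genus of `ℚ̄(X₀(N))` = `genusFormula N`) and `ff1_modular`.
-/

set_option autoImplicit false

noncomputable section

open AlgebraicCurve ModularCurve

namespace Fermat.Agent.Lib.RR.H80

open Fermat.Agent.Lib.RR

variable (N : ℕ) [NeZero N]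

/-- `ℚ̄(X₀(N))` has canonical divisors (in the Prelude's Kähler sense). -/
theorem hasCanonicalDivisor_modular :
    HasCanonicalDivisor (K := AlgebraicClosure ℚ) (F := ↥(modularFunctionFieldBar N)) :=
  hasCanonicalDivisor_of_FF1 (AlgebraicClosure ℚ) ↥(modularFunctionFieldBar N)

/-- **The adelic genus of `X₀(N)`** is the classical genus formula. -/
theorem genusFF_modular_eq_genusFormula :
    (genusFF (AlgebraicClosure ℚ) ↥(modularFunctionFieldBar N) : ℚ) = genusFormula N := by
  have := hasCanonicalDivisor_modular N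
  rw [← genus_eq_genusFF (AlgebraicClosure ℚ) ↥(modularFunctionFieldBar N)]
  exact Fermat.Agent.S24.result N

/-- The Kähler genus of `X₀(N)` is the adelic genus. -/
theorem genus_modular_eq_genusFF
    [HasCanonicalDivisor (K := AlgebraicClosure ℚ) (F := ↥(modularFunctionFieldBar N))] :
    AlgebraicCurve.genus (AlgebraicClosure ℚ) ↥(modularFunctionFieldBar N) =
      genusFF (AlgebraicClosure ℚ) ↥(modularFunctionFieldBar N) :=
  genus_eq_genusFF (AlgebraicClosure ℚ) ↥(modularFunctionFieldBar N)

/-- `deg div(ω) = 2 g - 2` on `X₀(N)`, `g = genusFF`. -/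
theorem degree_kaehler_modular
    {ω : Ω[↥(modularFunctionFieldBar N)⁄AlgebraicClosure ℚ]} (hω : ω ≠ 0)
    {W : Divisor (AlgebraicClosure ℚ) ↥(modularFunctionFieldBar N)}
    (hW : ∀ v : Place (AlgebraicClosure ℚ) ↥(modularFunctionFieldBar N),
      W v = v.ordDifferential ω) :
    Divisor.degree W =
      2 * (genusFF (AlgebraicClosure ℚ) ↥(modularFunctionFieldBar N) : ℤ) - 2 :=
  degree_kaehler hω hW

end Fermat.Agent.Lib.RR.H80
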