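import Fermat.Agent.Lib.RR.H80.Res.Almost

/-!
# Tate's residue symbol, abstract part 2: the symbol `tsym p f g = Tr [p f, g]`

`p` is a projector onto a subspace `A ⊆ V`, `f`, `g` are commuting endomorphisms with
`f A ≲ A`, `g A ≲ A`.  `tsym p f g` is Tate's `res^V_A (f dg)`.

* `tsym_congr`      : independence of the projector and of `A` up to commensurability;
* `tsym_add_left`, `tsym_smul_left`, `tsym_add_right`, `tsym_smul_right` : bilinearity;
* `tsym_leibniz`    : `res (f d(gh)) = res (fg dh) + res (fh dg)`;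
* `tsym_eq_zero_of_map_le` : `res (f dg) = 0` if `f A ⊆ A` and `g A ⊆ A`;
* `tsym_unif`       : `res (h g⁻¹ dg) = c` if `g A ⊆ A`, `A = g A ⊕ K a₀` and `h ≡ c` on `A / g A`;
* `tsym_eq_zero_of_cocompact` : the abstract residue theorem.
-/

set_option autoImplicit false

noncomputable section

namespace Fermat.Agent.Lib.RR.H80

open LinearMap Module

variable {K V : Type*} [Field K] [AddCommGroup V] [Module K V]

variable {A A' : Submodule K V}

/-! ### Commensurable subspaces -/

theorem EE.of_almost (h1 : AlmostLE A A') (h2 : AlmostLE A' A) {θ : Module.End K V}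
    (h : EE A θ) : EE A' θ :=
  ((AlmostLE.map h2 θ).trans h).trans h1

theorem E1.of_almost (h1 : AlmostLE A A') {θ : Module.End K V} (h : E1 A θ) : E1 A' θ :=
  AlmostLE.trans h h1

theorem E2.of_almost (h2 : AlmostLE A' A) {θ : Module.End K V} (h : E2 A θ) : E2 A' θ :=
  (AlmostLE.map h2 θ).trans h

theorem E0.of_almost (h1 : AlmostLE A A') (h2 : AlmostLE A' A) {θ : Module.End K V}
    (h : E0 A θ) : E0 A' θ :=
  ⟨h.1.of_almost h1, h.2.of_almost h2⟩

/-! ### Projectors -/

theorem isProj_E1 {p : Module.End K V} (hp : LinearMap.IsProj A p) : E1 A p :=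
  AlmostLE.of_le (by rintro _ ⟨x, rfl⟩; exact hp.map_mem x)

/-- If `θ X ≲ A` then `(θ - p θ) X` is finite-dimensional. -/
theorem almostLE_map_sub_proj {p : Module.End K V} (hp : LinearMap.IsProj A p)
    {X : Submodule K V} {θ : Module.End K V} (h : AlmostLE (X.map θ) A) :
    AlmostLE (X.map (θ - p * θ)) ⊥ := by
  obtain ⟨W, hW, h⟩ := h
  refine ⟨W ⊔ W.map p, inferInstance, ?_⟩
  rw [bot_sup_eq]
  rintro _ ⟨x, hx, rfl⟩
  obtain ⟨a, ha, w, hw, e⟩ := Submodule.mem_sup.mp (h ⟨x, hx, rfl⟩)
  have : (θ - p * θ) x = w - p w := by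
    rw [LinearMap.sub_apply, Module.End.mul_apply, ← e, map_add, hp.map_id a ha]
    abel
  rw [this]
  exact Submodule.sub_mem _ (Submodule.mem_sup_left hw) (Submodule.mem_sup_right ⟨w, hw, rfl⟩)

theorem isProj_sub_mul_E2 {p f : Module.End K V} (hp : LinearMap.IsProj A p) (hf : EE A f) :
    E2 A (f - p * f) :=
  almostLE_map_sub_proj hp hf

theorem isProj_mul_E1 {p : Module.End K V} (hp : LinearMap.IsProj A p) (f : Module.End K V) :
    E1 A (p * f) :=
  (isProj_E1 hp).mul_right f

/-- `f p - p f ∈ E₀` for `f ∈ EE`. -/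
theorem isProj_commutator_E0 {p f : Module.End K V} (hp : LinearMap.IsProj A p)
    (hf : EE A f) : E0 A (f * p - p * f) := by
  refine ⟨((isProj_E1 hp).mul_left hf).sub (isProj_mul_E1 hp f), ?_⟩
  have h := isProj_sub_mul_E2 hp hf
  unfold E2 at *
  refine h.mono_left ?_
  rintro _ ⟨a, ha, rfl⟩
  refine ⟨a, ha, ?_⟩
  simp only [LinearMap.sub_apply, Module.End.mul_apply, hp.map_id a ha]

/-- `p - p' ∈ E₀(A)` for projectors onto commensurable subspaces. -/
theorem isProj_sub_E0 {p p' : Module.End K V} (hp : LinearMap.IsProj A p)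
    (hp' : LinearMap.IsProj A' p') (h1 : AlmostLE A A') (h2 : AlmostLE A' A) :
    E0 A (p - p') := by
  refine ⟨(isProj_E1 hp).sub ((isProj_E1 hp').of_almost h2), ?_⟩
  have h : AlmostLE (A.map (1 : Module.End K V)) A' := by
    rw [show A.map (1 : Module.End K V) = A from Submodule.map_id A]; exact h1
  have h3 := almostLE_map_sub_proj hp' h
  unfold E2
  refine h3.mono_left ?_
  rintro _ ⟨a, ha, rfl⟩
  refine ⟨a, ha, ?_⟩
  simp only [LinearMap.sub_apply, Module.End.mul_apply, Module.End.one_apply, hp.map_id a ha]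

/-! ### The symbol -/

/-- Tate's symbol `res^V_A (f dg) = Tr [p f, g]`, `p` a projector onto `A`. -/
def tsym (p f g : Module.End K V) : K := fpTr (p * f * g - g * (p * f))

theorem commutator_E0 {p f g : Module.End K V} (hp : LinearMap.IsProj A p) (hf : EE A f)
    (hg : EE A g) (hc : f * g = g * f) : E0 A (p * f * g - g * (p * f)) := by
  refine ⟨((isProj_mul_E1 hp f).mul_right g).sub ((isProj_mul_E1 hp f).mul_left hg), ?_⟩
  have e : p * f * g - g * (p * f) = -((f - p * f) * g - g * (f - p * f)) := by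
    have : f * g - g * f = 0 := sub_eq_zero.mpr hc
    calc p * f * g - g * (p * f)
        = -((f - p * f) * g - g * (f - p * f)) + (f * g - g * f) := by noncomm_ring
      _ = _ := by rw [this, add_zero]
  rw [e]
  have h := isProj_sub_mul_E2 hp hf
  exact ((h.mul_right hg).sub (h.mul_left g)).neg

/-- Independence of the projector and of the subspace up to commensurability. -/
theorem tsym_congr {p p' f g : Module.End K V} (hp : LinearMap.IsProj A p)
    (hp' : LinearMap.IsProj A' p') (h1 : AlmostLE A A') (h2 : AlmostLE A' A)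
    (hf : EE A f) (hg : EE A g) (hc : f * g = g * f) :
    tsym p f g = tsym p' f g := by
  unfold tsym
  refine fpTr_commutator_congr (A := A) ?_ hg ?_
  · have : p * f - p' * f = (p - p') * f := by noncomm_ring
    rw [this]
    exact (isProj_sub_E0 hp hp' h1 h2).mul_right hf
  · exact (commutator_E0 hp' (hf.of_almost h1 h2) (hg.of_almost h1 h2) hc).of_almost h2 h1

theorem tsym_add_left {p f f' g : Module.End K V} (hp : LinearMap.IsProj A p)
    (hf : EE A f) (hf' : EE A f') (hg : EE A g) (hc : f * g = g * f) (hc' : f' * g = g * f') :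
    tsym p (f + f') g = tsym p f g + tsym p f' g := by
  unfold tsym
  rw [← fpTr_add_of_E0 (commutator_E0 hp hf hg hc) (commutator_E0 hp hf' hg hc')]
  congr 1
  noncomm_ring

theorem tsym_smul_left (p f g : Module.End K V) (c : K) :
    tsym p (c • f) g = c * tsym p f g := by
  unfold tsym
  rw [← fpTr_smul]
  congr 1
  simp only [mul_smul_comm, smul_mul_assoc, smul_sub]

theorem tsym_add_right {p f g g' : Module.End K V} (hp : LinearMap.IsProj A p)
    (hf : EE A f) (hg : EE A g) (hg' : EE A g') (hc : f * g = g * f) (hc' : f * g' = g' * f) :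
    tsym p f (g + g') = tsym p f g + tsym p f g' := by
  unfold tsym
  rw [← fpTr_add_of_E0 (commutator_E0 hp hf hg hc) (commutator_E0 hp hf hg' hc')]
  congr 1
  noncomm_ring

theorem tsym_smul_right (p f g : Module.End K V) (c : K) :
    tsym p f (c • g) = c * tsym p f g := by
  unfold tsym
  rw [← fpTr_smul]
  congr 1
  simp only [mul_smul_comm, smul_mul_assoc, smul_sub]

/-- **Leibniz rule**: `res (f d(gh)) = res (fg dh) + res (fh dg)`. -/
theorem tsym_leibniz {p f g h : Module.End K V} (hp : LinearMap.IsProj A p)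
    (hf : EE A f) (hg : EE A g) (hh : EE A h) (hfg : f * g = g * f) (hfh : f * h = h * f)
    (hgh : g * h = h * g) :
    tsym p f (g * h) = tsym p (f * g) h + tsym p (f * h) g := by
  have hfgh : (f * g) * h = h * (f * g) := by
    rw [mul_assoc, hgh, ← mul_assoc, hfh, mul_assoc]
  have hfhg : (f * h) * g = g * (f * h) := by
    rw [mul_assoc, ← hgh, ← mul_assoc, hfg, mul_assoc]
  have e0 : E0 A (p * (f * g) * h - h * (p * (f * g))) :=
    commutator_E0 hp (hf.mul hg) hh hfgh
  have e1 : E0 A (p * (f * h) * g - g * (p * (f * h))) :=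
    commutator_E0 hp (hf.mul hh) hg hfhg
  -- the second term, with the lift `h p f` of `h f`
  have hδ : E0 A (h * (p * f) - p * (f * h)) := by
    have : h * (p * f) - p * (f * h) = (h * p - p * h) * f := by
      rw [hfh]; noncomm_ring
    rw [this]
    exact (isProj_commutator_E0 hp hh).mul_right hf
  have e2 := fpTr_commutator_congr (A := A) hδ hg e1
  unfold tsym
  rw [← e2, ← fpTr_add_of_E0 e0 ?_]
  · congr 1
    noncomm_ring
  · -- `[h p f, g] ∈ E₀`
    have : h * (p * f) * g - g * (h * (p * f))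
        = (p * (f * h) * g - g * (p * (f * h)))
          + ((h * (p * f) - p * (f * h)) * g - g * (h * (p * f) - p * (f * h))) := by
      noncomm_ring
    rw [this]
    exact e1.add ((hδ.mul_right hg).sub (hδ.mul_left hg))

/-- `res (f dg) = 0` if `f` and `g` preserve `A`. -/
theorem tsym_eq_zero_of_map_le {p f g : Module.End K V} (hp : LinearMap.IsProj A p)
    (hf : A.map f ≤ A) (hg : A.map g ≤ A) (hc : f * g = g * f) :
    tsym p f g = 0 := by
  unfold tsym
  apply fpTr_eq_zero_of_pow_eq_zero _ 2
  have hrange : ∀ x, (p * f * g - g * (p * f)) x ∈ A := by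
    intro x
    simp only [LinearMap.sub_apply, Module.End.mul_apply]
    exact Submodule.sub_mem _ (hp.map_mem _) (hg ⟨_, hp.map_mem _, rfl⟩)
  have hzero : ∀ a ∈ A, (p * f * g - g * (p * f)) a = 0 := by
    intro a ha
    have hga : g a ∈ A := hg ⟨a, ha, rfl⟩
    have hfa : f a ∈ A := hf ⟨a, ha, rfl⟩
    have hfga : f (g a) ∈ A := hf ⟨_, hga, rfl⟩
    simp only [LinearMap.sub_apply, Module.End.mul_apply]
    rw [hp.map_id _ hfga, hp.map_id _ hfa]
    have := congrArg (fun θ : Module.End K V => θ a) hc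
    simp only [Module.End.mul_apply] at this
    rw [this, sub_self]
  ext x
  rw [pow_two, Module.End.mul_apply, hzero _ (hrange x)]
  rfl

end Fermat.Agent.Lib.RR.H80
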