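import Fermat.Agent.Lib.RR.H80.Res.Symbol

/-!
# Tate's residue symbol, abstract part 3

* `tsym_unif` : `res (h g⁻¹ dg) = c` if `g A ⊆ A`, `A = g A ⊕ K a₀` and `h ≡ c` on `A / g A`;
* `exists_isProj` : every subspace is the image of a projector;
* `tsym_eq_zero_of_cocompact` : the abstract residue theorem: if `f`, `g` preserve a subspace `B`
  with `A ∩ B` finite-dimensional and `A + B` of finite codimension, then `res^V_A (f dg) = 0`.
-/

set_option autoImplicit false

noncomputable section

namespace Fermat.Agent.Lib.RR.H80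

open LinearMap Module

variable {K V : Type*} [Field K] [AddCommGroup V] [Module K V]

variable {A B : Submodule K V}

theorem isProj_projection {p q : Submodule K V} (h : IsCompl p q) :
    LinearMap.IsProj p (p.projection q h) :=
  ⟨fun x => Submodule.projection_apply_mem h x,
    fun _ hx => Submodule.projection_apply_of_mem_left h hx⟩

theorem exists_isProj (A : Submodule K V) : ∃ p : Module.End K V, LinearMap.IsProj A p := by
  obtain ⟨q, hq⟩ := Submodule.exists_isCompl A
  exact ⟨A.projection q hq, isProj_projection hq⟩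

theorem isProj_one_sub {p q : Submodule K V} (h : IsCompl p q) :
    LinearMap.IsProj q ((1 : Module.End K V) - p.projection q h) := by
  have key : (1 : Module.End K V) - p.projection q h = q.projection p h.symm := by
    have := Submodule.projection_add_projection_eq_id h
    exact (eq_sub_of_add_eq' this).symm
  rw [key]
  exact isProj_projection h.symm

/-- `res (h g⁻¹ dg) = c`. -/
theorem tsym_unif {p g gi h : Module.End K V} (hp : LinearMap.IsProj A p)
    (hg2 : gi * g = 1) (hgh : h * gi = gi * h)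
    (hgA : A.map g ≤ A) (hhA : A.map h ≤ A) (c : K)
    (hc : ∀ a ∈ A, h a - c • a ∈ A.map g)
    (a₀ : V) (ha₀ : a₀ ∈ A) (ha₀' : a₀ ∉ A.map g)
    (hspan : ∀ a ∈ A, ∃ k : K, a - k • a₀ ∈ A.map g) :
    tsym p (h * gi) g = c := by
  unfold tsym
  set q : Module.End K V := g * p * gi with hq
  have e : p * (h * gi) * g - g * (p * (h * gi)) = (p - q) * h := by
    have e1 : p * (h * gi) * g = p * h := by
      rw [mul_assoc, mul_assoc, hg2, mul_one]
    have e2 : g * (p * (h * gi)) = q * h := by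
      rw [hq, hgh]; noncomm_ring
    rw [e1, e2, sub_mul]
  rw [e]
  set θ : Module.End K V := (p - q) * h with hθ
  -- basic facts on `q`
  have hq_mem : ∀ x, q x ∈ A.map g := fun x => ⟨p (gi x), hp.map_mem _, rfl⟩
  have hq_id : ∀ y ∈ A.map g, q y = y := by
    rintro _ ⟨a, ha, rfl⟩
    simp only [hq, Module.End.mul_apply]
    have : gi (g a) = a := by
      have := congrArg (fun φ : Module.End K V => φ a) hg2
      simpa using this
    rw [this, hp.map_id a ha]
  set c₀ : V := a₀ - q a₀ with hc₀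
  have hc₀A : c₀ ∈ A := Submodule.sub_mem _ ha₀ (hgA (hq_mem a₀))
  have hc₀ne : c₀ ≠ 0 := by
    intro h0
    apply ha₀'
    have : a₀ = q a₀ := sub_eq_zero.mp h0
    rw [this]
    exact hq_mem a₀
  have hqc₀ : q c₀ = 0 := by
    rw [hc₀, map_sub, hq_id _ (hq_mem a₀), sub_self]
  -- `(1 - q) a ∈ K c₀` for `a ∈ A`
  have hline : ∀ a ∈ A, ∃ k : K, a - q a = k • c₀ := by
    intro a ha
    obtain ⟨k, hk⟩ := hspan a ha
    refine ⟨k, ?_⟩
    have h1 : q (a - k • a₀) = a - k • a₀ := hq_id _ hk
    rw [map_sub, map_smul] at h1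
    rw [hc₀, smul_sub]
    have : a - q a = k • a₀ - k • q a₀ + ((a - k • a₀) - (q a - k • q a₀)) := by abel
    rw [this, h1, sub_self, add_zero]
  have hθA : ∀ a ∈ A, ∃ k : K, θ a = k • c₀ := by
    intro a ha
    have hha : h a ∈ A := hhA ⟨a, ha, rfl⟩
    obtain ⟨k, hk⟩ := hline (h a) hha
    refine ⟨k, ?_⟩
    rw [hθ, Module.End.mul_apply, LinearMap.sub_apply, hp.map_id _ hha, hk]
  have hθmem : ∀ x, θ x ∈ A := by
    intro x
    rw [hθ, Module.End.mul_apply, LinearMap.sub_apply]
    exact Submodule.sub_mem _ (hp.map_mem _) (hgA (hq_mem _))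
  have hθc₀ : θ c₀ = c • c₀ := by
    have hh : h c₀ ∈ A := hhA ⟨c₀, hc₀A, rfl⟩
    rw [hθ, Module.End.mul_apply, LinearMap.sub_apply, hp.map_id _ hh]
    have h1 := hq_id _ (hc c₀ hc₀A)
    rw [map_sub, map_smul, hqc₀, smul_zero, sub_zero] at h1
    rw [h1]
    abel
  -- the line `C = K c₀`
  set C : Submodule K V := K ∙ c₀ with hC
  have hCst : ∀ x ∈ C, θ x ∈ C := by
    intro x hx
    obtain ⟨k, rfl⟩ := Submodule.mem_span_singleton.mp hx
    rw [map_smul, hθc₀]
    exact Submodule.smul_mem _ _ (Submodule.smul_mem _ _ (Submodule.mem_span_singleton_self c₀))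
  have hpow : LinearMap.range (θ ^ 2) ≤ C := by
    rintro _ ⟨x, rfl⟩
    rw [pow_two, Module.End.mul_apply]
    obtain ⟨k, hk⟩ := hθA (θ x) (hθmem x)
    rw [hk]
    exact Submodule.smul_mem _ _ (Submodule.mem_span_singleton_self c₀)
  rw [fpTr_eq_trace_restrict θ C hCst 2 hpow]
  have hres : θ.restrict hCst = c • (1 : Module.End K C) := by
    ext ⟨x, hx⟩
    obtain ⟨k, rfl⟩ := Submodule.mem_span_singleton.mp hx
    show θ (k • c₀) = c • (k • c₀)
    rw [map_smul, hθc₀, smul_comm]
  rw [hres, map_smul, LinearMap.trace_one, hC, finrank_span_singleton hc₀ne]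
  simp

/-- Complementary projectors give opposite symbols. -/
theorem tsym_one_sub {p f g : Module.End K V} (hc : f * g = g * f) :
    tsym (1 - p) f g = -tsym p f g := by
  unfold tsym
  rw [← fpTr_neg]
  congr 1
  have : f * g - g * f = 0 := sub_eq_zero.mpr hc
  calc (1 - p) * f * g - g * ((1 - p) * f)
      = -(p * f * g - g * (p * f)) + (f * g - g * f) := by noncomm_ring
    _ = _ := by rw [this, add_zero]

/-- **The abstract residue theorem.** -/
theorem tsym_eq_zero_of_cocompact {p f g : Module.End K V} (hp : LinearMap.IsProj A p)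
    (hf : EE A f) (hg : EE A g) (hc : f * g = g * f)
    (hfB : B.map f ≤ B) (hgB : B.map g ≤ B)
    (hinf : FiniteDimensional K ↥(A ⊓ B))
    (hsup : ∃ C : Submodule K V, FiniteDimensional K C ∧ A ⊔ B ⊔ C = ⊤) :
    tsym p f g = 0 := by
  obtain ⟨C, hCfin, hC⟩ := hsup
  -- `A' ⊆ A` with `A' ∩ B = 0`, `A = A' + (A ∩ B)`
  obtain ⟨D, hD⟩ := Submodule.exists_isCompl (A ⊓ B)
  set A' : Submodule K V := A ⊓ D with hA'
  have hA'le : A' ≤ A := inf_le_left
  have hA'B : A' ⊓ B = ⊥ := by
    rw [hA', inf_right_comm]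
    exact hD.inf_eq_bot
  have hAle : A ≤ A' ⊔ (A ⊓ B) := by
    intro a ha
    have htop : a ∈ (A ⊓ B) ⊔ D := by rw [hD.sup_eq_top]; trivial
    obtain ⟨x, hx, d, hd, rfl⟩ := Submodule.mem_sup.mp htop
    have hdA : d ∈ A := by
      have := Submodule.sub_mem _ ha hx.1
      simpa using this
    exact Submodule.add_mem _ (Submodule.mem_sup_right hx) (Submodule.mem_sup_left ⟨hdA, hd⟩)
  have hAA' : AlmostLE A A' := ⟨A ⊓ B, hinf, hAle⟩
  have hA'A : AlmostLE A' A := AlmostLE.of_le hA'le
  -- `M = A' + B = A + B`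
  set M : Submodule K V := A' ⊔ B with hM
  have hMC : M ⊔ C = ⊤ := by
    rw [eq_top_iff, ← hC]
    refine sup_le (sup_le (hAle.trans ?_) (le_sup_of_le_left le_sup_right)) le_sup_right
    exact le_sup_of_le_left (sup_le le_sup_left (inf_le_right.trans le_sup_right))
  -- `C' ⊆ C` with `M ∩ C' = 0`, `M + C' = V`
  obtain ⟨D', hD'⟩ := Submodule.exists_isCompl (M ⊓ C)
  set C' : Submodule K V := C ⊓ D' with hC'
  have hC'fin : FiniteDimensional K C' := Submodule.finiteDimensional_of_le inf_le_left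
  have hMC' : M ⊓ C' = ⊥ := by
    rw [hC', ← inf_assoc]
    exact hD'.inf_eq_bot
  have hCle : C ≤ M ⊔ C' := by
    intro x hx
    have htop : x ∈ (M ⊓ C) ⊔ D' := by rw [hD'.sup_eq_top]; trivial
    obtain ⟨y, hy, d, hd, rfl⟩ := Submodule.mem_sup.mp htop
    have hdC : d ∈ C := by
      have := Submodule.sub_mem _ hx hy.2
      simpa using this
    exact Submodule.add_mem _ (Submodule.mem_sup_left hy.1) (Submodule.mem_sup_right ⟨hdC, hd⟩)
  set B' : Submodule K V := B ⊔ C' with hB'
  have hcompl : IsCompl A' B' := by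
    constructor
    · rw [disjoint_iff, eq_bot_iff]
      rintro x ⟨hxA, hxB⟩
      obtain ⟨b, hb, c', hc', rfl⟩ := Submodule.mem_sup.mp hxB
      have h1 : c' ∈ M ⊓ C' := by
        refine ⟨?_, hc'⟩
        have : c' = (b + c') - b := by abel
        rw [this]
        exact Submodule.sub_mem _ (Submodule.mem_sup_left hxA) (Submodule.mem_sup_right hb)
      rw [hMC', Submodule.mem_bot] at h1
      subst h1
      rw [add_zero] at hxA ⊢
      have h2 : b ∈ A' ⊓ B := ⟨hxA, hb⟩
      rw [hA'B] at h2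
      exact h2
    · rw [codisjoint_iff, eq_top_iff, ← hMC]
      refine sup_le ?_ (hCle.trans ?_)
      · exact sup_le le_sup_left (le_sup_of_le_right le_sup_left)
      · exact sup_le (sup_le le_sup_left (le_sup_of_le_right le_sup_left))
          (le_sup_of_le_right le_sup_right)
  have hBB' : AlmostLE B B' := AlmostLE.of_le le_sup_left
  have hB'B : AlmostLE B' B := ⟨C', hC'fin, le_rfl⟩
  obtain ⟨pB, hpB⟩ := exists_isProj B
  have hfB' : EE B f := EE.of_map_le hfB
  have hgB' : EE B g := EE.of_map_le hgB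
  -- chain of equalities
  have s1 : tsym p f g = tsym (A'.projection B' hcompl) f g :=
    tsym_congr hp (isProj_projection hcompl) hAA' hA'A hf hg hc
  have s2 : tsym (1 - A'.projection B' hcompl) f g = -tsym (A'.projection B' hcompl) f g :=
    tsym_one_sub hc
  have s3 : tsym (1 - A'.projection B' hcompl) f g = tsym pB f g :=
    tsym_congr (isProj_one_sub hcompl) hpB hB'B hBB' (hfB'.of_almost hBB' hB'B)
      (hgB'.of_almost hBB' hB'B) hc
  have s4 : tsym pB f g = 0 := tsym_eq_zero_of_map_le hpB hfB hgB hc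
  rw [s1, ← neg_neg (tsym (A'.projection B' hcompl) f g), ← s2, s3, s4, neg_zero]

end Fermat.Agent.Lib.RR.H80
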